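import Mathlib
import Fermat.Agent.Flat.FlatModel
import Fermat.Agent.FlatOrd.Model

/-!
# Orders of equivariant functions: kernel of reduction and inertia

Version of `FlatOrd.Model.FlatModel.le_of_inertia_trivial` for orders of equivariant functions.
-/

set_option autoImplicit false
set_option linter.style.haveILetI false

noncomputable section

open scoped TensorProduct
open Fermat.Agent.FrobExists

namespace Fermat.Agent.RT.UnitRoot

open Fermat.Agent.Flat Fermat.Agent.FlatOrd Fermat.Agent.FlatOrd.Model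

/-- **No trivial inertia constituent in the kernel of reduction** (`p` odd). -/
theorem le_of_inertia_trivial {p : ℕ} {M : Type} [AddCommGroup M] [Finite M]
    (act : GQ → M → M) (h1 : ∀ t, act 1 t = t)
    (hmul : ∀ σ τ t, act (σ * τ) t = act σ (act τ t))
    (hadd : ∀ σ s t, act σ (s + t) = act σ s + act σ t)
    (H : Subalgebra (ZL p) (M → Qbar)) (hfinH : Module.Finite (ZL p) H)
    (hequiv : ∀ h ∈ H, ∀ (σ : GQ) (t : M), h (act σ t) = σ (h t))
    (hsep : ∀ s t, (∀ h ∈ H, h s = h t) → s = t)
    (hcomul : ∀ h ∈ H, ∃ (n : ℕ) (a b : Fin n → M → Qbar), (∀ i, a i ∈ H) ∧ (∀ i, b i ∈ H) ∧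
        ∀ s t, h (s + t) = ∑ i, a i s * b i t)
    (hp : p.Prime) (hp2 : p ≠ 2) (P : ValuationSubring Qbar)
    (hP : P.LiesOverPrime p) (N N' : AddSubgroup M)
    (hN : ∀ h ∈ H, ∀ x ∈ N, h x - h 0 ∈ P.nonunits)
    (hNst : ∀ σ ∈ P.inertiaSubgroupIn ℚ, ∀ x ∈ N, act σ x ∈ N)
    (hNN' : ∀ σ ∈ P.inertiaSubgroupIn ℚ, ∀ x ∈ N, act σ x - x ∈ N')
    (hpow : ∀ x ∈ N, ∃ k : ℕ, p ^ k • x = 0) : N ≤ N' := by
  have hact0 : ∀ σ, act σ 0 = 0 := by
    intro σ
    have := hadd σ 0 0
    rw [add_zero] at this
    simpa using this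
  let I := P.inertiaSubgroupIn ℚ
  let S := Unramified.inertiaRing P
  have hDVR : IsDiscreteValuationRing S := Unramified.inertiaRing_isDiscreteValuationRing P hp hP
  let _ : DistribMulAction I N :=
    { smul := fun σ x => ⟨act σ x, hNst σ σ.2 x x.2⟩
      one_smul := fun x => Subtype.ext (by
        show act ((1 : I) : GQ) (x : M) = x
        rw [OneMemClass.coe_one, h1])
      mul_smul := fun σ τ x => Subtype.ext (by
        show act ((σ * τ : I) : GQ) (x : M) = act σ (act τ x)
        rw [MulMemClass.coe_mul, hmul])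
      smul_zero := fun σ => Subtype.ext (hact0 σ)
      smul_add := fun σ x y => Subtype.ext (hadd σ (x : M) y) }
  have hsmul : ∀ (σ : I) (x : N), ((σ • x : N) : M) = act σ x := fun σ x => rfl
  let A : Submodule S (N → Qbar) :=
    Submodule.span S (Set.range fun h : H => fun x : N => (h : M → Qbar) x)
  have hS : ∀ t : Qbar, t ∈ S ↔ t ∈ P ∧ ∀ τ : I, τ • t = t := fun t => Iff.rfl
  have hU : ∀ t : Qbar, (∀ τ : I, τ • t = t) → t ∈ P.nonunits → ∃ s ∈ P, t = p * s :=
    fun t ht htm => Unramified.exists_eq_mul_of_fixed P hp hP t (fun σ hσ => ht ⟨σ, hσ⟩) htm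
  have hfg : A.FG := by
    obtain ⟨T, hT⟩ := Module.finite_def.mp hfinH
    have hgen : A = Submodule.span S ((fun h : H => fun x : N => (h : M → Qbar) x) '' (T : Set H)) := by
      refine le_antisymm (Submodule.span_le.mpr ?_) (Submodule.span_mono (Set.image_subset_range _ _))
      rintro _ ⟨h, rfl⟩
      have hh : h ∈ Submodule.span (ZL p) (T : Set H) := hT ▸ Submodule.mem_top
      show (fun x : N => (h : M → Qbar) x) ∈ Submodule.span S _
      induction hh using Submodule.span_induction with
      | mem h hh => exact Submodule.subset_span ⟨h, hh, rfl⟩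
      | zero => exact Submodule.zero_mem _
      | add a b _ _ ha hb => exact Submodule.add_mem _ ha hb
      | smul r h _ ih =>
        have hrS : ((r : ℚ) : Qbar) ∈ S := ⟨ratCast_mem P hP r, fun σ => by
          show (σ : GQ) ((r : ℚ) : Qbar) = _
          rw [map_ratCast]⟩
        have h1 : (fun x : N => ((r • h : H) : M → Qbar) x) =
            (⟨_, hrS⟩ : S) • fun x : N => (h : M → Qbar) x := by
          funext x
          show r • ((h : M → Qbar) x) = ((r : ℚ) : Qbar) * (h : M → Qbar) x
          rw [Algebra.smul_def]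
          congr 1
        rw [h1]
        exact Submodule.smul_mem _ _ ih
    rw [hgen]
    exact Submodule.fg_span (T.finite_toSet.image _)
  have hAeq : ∀ a ∈ A, ∀ (τ : I) x, a (τ • x) = τ • a x := by
    intro a ha τ
    induction ha using Submodule.span_induction with
    | mem a ha =>
      obtain ⟨h, rfl⟩ := ha
      intro x
      exact hequiv h h.2 τ x
    | zero => intro x; exact (smul_zero τ).symm
    | add a b _ _ ha hb =>
      intro x
      rw [Pi.add_apply, Pi.add_apply, ha, hb, smul_add]
    | smul s a _ ha =>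
      intro x
      rw [Pi.smul_apply, Pi.smul_apply, ha]
      show (s : Qbar) * (τ • a x) = τ • ((s : Qbar) * a x)
      rw [smul_mul', s.2.2]
  have hAred : ∀ a ∈ A, ∀ x, a x - a 0 ∈ P.nonunits := by
    intro a ha
    induction ha using Submodule.span_induction with
    | mem a ha =>
      obtain ⟨h, rfl⟩ := ha
      intro x
      exact hN h h.2 x x.2
    | zero => intro x; rw [Pi.zero_apply, Pi.zero_apply, sub_zero]; exact FlatModel.nonunits_zero
    | add a b _ _ ha hb =>
      intro x
      rw [Pi.add_apply, Pi.add_apply, add_sub_add_comm]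
      exact FlatModel.nonunits_add (ha x) (hb x)
    | smul s a _ ha =>
      intro x
      have h1 : (s • a) x - (s • a) 0 = (s : Qbar) * (a x - a 0) := by
        rw [mul_sub]; rfl
      rw [h1]
      exact mul_mem_nonunits P s.2.1 (ha x)
  have hAspan : Submodule.span Qbar (A : Set (N → Qbar)) = ⊤ := by
    classical
    have : Fintype N := Fintype.ofFinite N
    by_contra hne
    obtain ⟨lam, hlam, hle⟩ := Submodule.exists_le_ker_of_lt_top _ (lt_top_iff_ne_top.mpr hne)
    apply hlam
    have hexp : ∀ g : N → Qbar, lam g = ∑ x, lam (Pi.single x 1) * g x := by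
      intro g
      conv_lhs => rw [← Finset.univ_sum_single g, map_sum]
      refine Finset.sum_congr rfl fun x _ => ?_
      rw [mul_comm, ← smul_eq_mul, ← map_smul, ← Pi.single_smul, smul_eq_mul, mul_one]
    have hli := linearIndependent_monoidHom H Qbar
    have hinj : Function.Injective (fun x : N => ((evAt H (x : M) : H →+* Qbar) : H →* Qbar)) := by
      intro x y hxy
      apply Subtype.ext
      apply hsep
      intro h hh
      exact DFunLike.congr_fun hxy (⟨h, hh⟩ : H)
    have hli' := hli.comp _ hinj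
    rw [Fintype.linearIndependent_iff] at hli'
    have h0 := hli' (fun x => lam (Pi.single x 1)) (by
      funext h
      have h1 : (fun x : N => (h : M → Qbar) x) ∈ LinearMap.ker lam :=
        hle (Submodule.subset_span (Submodule.subset_span ⟨h, rfl⟩))
      rw [LinearMap.mem_ker, hexp] at h1
      rw [Finset.sum_apply]
      exact h1)
    refine LinearMap.ext fun g => ?_
    rw [hexp, LinearMap.zero_apply]
    exact Finset.sum_eq_zero fun x _ => by rw [h0 x, zero_mul]
  have hAmul : ∀ a ∈ A, (fun x y => a (x + y)) ∈ Submodule.span S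
      {g : N → N → Qbar | ∃ b ∈ A, ∃ c ∈ A, g = fun x y => b x * c y} := by
    intro a ha
    induction ha using Submodule.span_induction with
    | mem a ha =>
      obtain ⟨h, rfl⟩ := ha
      obtain ⟨n, a, b, ha, hb, hab⟩ := hcomul h h.2
      have h1 : (fun x y : N => (h : M → Qbar) ((x + y : N) : M)) =
          ∑ i, fun x y : N => a i x * b i y := by
        funext x y
        rw [Finset.sum_apply, Finset.sum_apply]
        exact hab x y
      show (fun x y : N => (h : M → Qbar) ((x + y : N) : M)) ∈ _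
      rw [h1]
      exact Submodule.sum_mem _ fun i _ => Submodule.subset_span ⟨_,
        Submodule.subset_span ⟨⟨a i, ha i⟩, rfl⟩, _, Submodule.subset_span ⟨⟨b i, hb i⟩, rfl⟩, rfl⟩
    | zero => exact Submodule.zero_mem _
    | add a b _ _ ha hb => exact Submodule.add_mem _ ha hb
    | smul s a _ ha => exact Submodule.smul_mem _ s ha
  intro x hx
  by_contra hxN'
  let Q := Multiplicative (N ⧸ (N'.addSubgroupOf N))
  let a : Q := Multiplicative.ofAdd (QuotientAddGroup.mk (⟨x, hx⟩ : N))
  have ha : a ≠ 1 := by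
    intro h
    have h1 : (QuotientAddGroup.mk (⟨x, hx⟩ : N) : N ⧸ (N'.addSubgroupOf N)) = 0 := h
    rw [QuotientAddGroup.eq_zero_iff] at h1
    exact hxN' h1
  have : NeZero ((Monoid.exponent Q : ℕ) : Qbar) := ⟨by
    have := Monoid.exponent_ne_zero_of_finite (G := Q)
    exact_mod_cast this⟩
  obtain ⟨φ, hφ⟩ := CommGroup.exists_apply_ne_one_of_hasEnoughRootsOfUnity Q Qbar ha
  let u : N → Qbar := fun y =>
    (φ (Multiplicative.ofAdd (QuotientAddGroup.mk y : N ⧸ (N'.addSubgroupOf N))) : Qbarˣ)
  have hu0 : u 0 = 1 := by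
    show ((φ (Multiplicative.ofAdd (QuotientAddGroup.mk (0 : N) : N ⧸ (N'.addSubgroupOf N))) :
      Qbarˣ) : Qbar) = 1
    rw [QuotientAddGroup.mk_zero, ofAdd_zero, map_one, Units.val_one]
  have hu : ∀ x y, u (x + y) = u x * u y := by
    intro x y
    show ((φ (Multiplicative.ofAdd (QuotientAddGroup.mk (x + y) : N ⧸ (N'.addSubgroupOf N))) :
      Qbarˣ) : Qbar) = _
    rw [QuotientAddGroup.mk_add, ofAdd_add, _root_.map_mul, Units.val_mul]
  have huN : ∀ n ∈ N'.addSubgroupOf N, u n = 1 := by
    intro n hn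
    show ((φ (Multiplicative.ofAdd (QuotientAddGroup.mk n : N ⧸ (N'.addSubgroupOf N))) :
      Qbarˣ) : Qbar) = 1
    rw [(QuotientAddGroup.eq_zero_iff n).mpr hn, ofAdd_zero, map_one, Units.val_one]
  have hkey := Key.key P S hS p hU A hfg hAeq hAred hAspan hAmul (N'.addSubgroupOf N)
    (fun τ x => hNN' τ τ.2 x x.2) u hu0 hu huN ⟨x, hx⟩
  obtain ⟨k, hk⟩ := hpow x hx
  have huk : ∀ (n : ℕ) (y : N), u (n • y) = u y ^ n := by
    intro n y
    induction n with
    | zero => rw [zero_smul, pow_zero, hu0]
    | succ n ih => rw [succ_nsmul, hu, ih, pow_succ]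
  have h1 : u ⟨x, hx⟩ ^ p ^ k = 1 := by
    rw [← huk]
    have : p ^ k • (⟨x, hx⟩ : N) = 0 := Subtype.ext hk
    rw [this, hu0]
  have h2 := Key.root_eq_one' P hp hp2 hP k hkey h1
  exact hφ (Units.ext h2)


end Fermat.Agent.RT.UnitRoot
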