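import Mathlib
import Fermat.Agent.Flat.Choice

/-!
# Choice of regular ideals with control of their classes

Variant of `Flat.CurveModel.exists_ideals` which records the classes of the chosen ideals.
-/

set_option autoImplicit false
set_option linter.unusedSectionVars false
set_option linter.overlappingInstances false

open Module IsLocalRing
open scoped TensorProduct

namespace Fermat.Agent.Flat

variable {K k SK Sk : Type*} [Field K] [Field k] [CommRing SK] [CommRing Sk] [Algebra K SK]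
  [Algebra k Sk] {g n₀ : ℕ} {DK : DegRing K SK g n₀} {Dk : DegRing k Sk g n₀}
    {O S : Type*} [CommRing O] [IsDomain O] [ValuationRing O] [Algebra O K] [IsFractionRing O K]
    [CommRing S] [Algebra O S]

namespace CurveModel

variable (M : CurveModel DK Dk O S)

section Dedekind

variable [IsDedekindDomain SK] [IsDedekindDomain Sk]

/-- Choice of regular ideals of codimension `g` in a translate of a finite group of ideal
classes. -/
theorem exists_ideals_of_cls [Infinite (Sk →ₐ[k] k)] {Γ : Type*} (Act : ModelAct M Γ)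
    (hpoint : ∀ ρ : Sk →ₐ[k] k, ∃ p : Ideal SK, p.IsMaximal ∧
      M.selfRel.IsReg (p.comap M.ε) 1 ∧ (p.comap M.ε).map M.ε = p ∧
      M.redIdeal p = RingHom.ker ρ ∧ ∀ γ, p.map (Act.τ γ) = p)
    {T : Type*} [AddCommGroup T] [Finite T] (act : Γ → T → T) (Z : T → Ideal SK)
    (hZ0 : ∀ x, Z x ≠ ⊥) (hZadd : ∀ x y, IdealEquiv (Z x * Z y) (Z (x + y)))
    (hZinj : ∀ x y, IdealEquiv (Z x) (Z y) → x = y)
    (hZact : ∀ γ x, IdealEquiv ((Z x).map (Act.τ γ)) (Z (act γ x))) :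
    ∃ I : T → Ideal SK,
      (∀ x, M.selfRel.IsReg ((I x).comap M.ε) g ∧ ((I x).comap M.ε).map M.ε = I x) ∧
      (∀ x, ∃ (𝔠 : Ideal Sk) (f₀ : Sk), f₀ ≠ 0 ∧ Ideal.span {f₀} = 𝔠 * M.redIdeal (I x) ∧
        ∀ u ∈ 𝔠, Dk.deg u ≤ Dk.deg f₀ → ∃ c : k, u = c • f₀) ∧
      (∀ x y, IdealEquiv (I x * I y) (I (x + y) * I 0)) ∧ Function.Injective I ∧
      (∀ γ x, (I x).map (Act.τ γ) = I (act γ x)) ∧ (∀ x, I x ≠ ⊥) ∧
      ∀ x y, cls (I x) * cls (Z y) = cls (I y) * cls (Z x) := by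
  classical
  -- moved representatives of the classes of `Z (-x)`
  choose 𝔷 d h𝔷0 h𝔷equiv h𝔷reg h𝔷mc using fun x => M.exists_moved (hZ0 (-x))
  have hA0 : ∀ x, M.selfRel.bar ((𝔷 x).comap M.ε) ≠ ⊥ := fun x => (h𝔷reg x).bar_ne_bot
  choose n₁ hn₁ using fun x => Dk.exists_fil_sup_eq_top (hA0 x)
  obtain ⟨r₀, hr₀⟩ := Finite.exists_le n₁
  set r := r₀ + n₀ + 1 with hr
  obtain ⟨l, hlen, hl⟩ := Dk.exists_cuts (ι := T × Bool)
    (fun i => d i.1 + r + g - (cond i.2 1 0))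
    (fun i => M.selfRel.bar ((𝔷 i.1).comap M.ε)) r
  obtain ⟨P, hP, hPbar, hPinv⟩ := M.exists_points_prod Act hpoint l
  rw [hlen] at hP
  have hJ : ∀ x, M.selfRel.IsReg ((𝔷 x).comap M.ε * P) (d x + r) := fun x => (h𝔷reg x).mul hP
  have hdim : ∀ x m, r₀ + n₀ ≤ m →
      Module.finrank k ↥(Dk.fil m ⊓
        (M.selfRel.bar ((𝔷 x).comap M.ε)).restrictScalars k) + g + d x = m + 1 := by
    intro x m hm
    have h1 := (Dk.finrank_quotient_of_sup_eq_top _ _ (hn₁ x m (by have := hr₀ x; omega))).2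
    have h2 := Dk.finrank_fil (n := m) (by omega)
    rw [(h𝔷reg x).bar_codim.2] at h1
    omega
  have key : ∀ x, ∃ (R : Ideal S) (F : S), M.selfRel.IsReg R g ∧
      F ∈ (𝔷 x).comap M.ε * P ∧ M.red F ≠ 0 ∧ Dk.deg (M.red F) = d x + r + g ∧
      F ∈ M.filS (d x + r + g) ∧
      (∀ t, M.selfRel.at_ R t * M.selfRel.at_ ((𝔷 x).comap M.ε * P) t =
        Ideal.span {M.ε F}) ∧
      M.selfRel.bar R * M.selfRel.bar ((𝔷 x).comap M.ε * P) = Ideal.span {M.red F} ∧
      (∀ u ∈ M.selfRel.bar ((𝔷 x).comap M.ε * P), Dk.deg u ≤ d x + r + g →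
        ∃ c : k, u = c • M.red F) ∧
      ∀ t, ∀ u ∈ M.selfRel.at_ ((𝔷 x).comap M.ε * P) t, DK.deg u ≤ d x + r + g →
        ∃ c : K, u = c • M.ε F := by
    intro x
    refine RelCurve.IsReg.exists_residual_one (hJ x) (n := d x + r + g) (by omega) rfl ?_ ?_
    · have h1 := hl (x, false)
      have h2 := hdim x (d x + r + g) (by omega)
      rw [M.selfRel.bar_mul, hPbar]
      simp only [cond_false, Nat.sub_zero] at h1
      omega
    · have h1 := hl (x, true)
      have h2 := hdim x (d x + r + g - 1) (by omega)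
      rw [M.selfRel.bar_mul, hPbar]
      simp only [cond_true] at h1
      omega
  choose R F hR hFJ hF0 hFdeg hFfil hat hbar hk hK using key
  set I : T → Ideal SK := fun x => (R x).map M.ε with hI
  have hIreg : ∀ x, (I x).comap M.ε = R x := by
    intro x
    refine le_antisymm (fun f hf => ?_) Ideal.le_comap_map
    exact (hR x).mem_of_forall fun t => hf
  have hI0 : ∀ x, I x ≠ ⊥ := fun x => (hR x).at_ne_bot ()
  have hIcodim : ∀ x, Module.finrank K (SK ⧸ I x) = g := fun x => ((hR x).codim ()).2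
  have hatJ : ∀ x, M.selfRel.at_ ((𝔷 x).comap M.ε * P) () = 𝔷 x * P.map M.ε := by
    intro x
    rw [M.selfRel.at_mul, M.selfRel_at, M.selfRel_at, h𝔷mc]
  have hP0 : P.map M.ε ≠ ⊥ := hP.at_ne_bot ()
  have hprod : ∀ x, I x * (𝔷 x * P.map M.ε) = Ideal.span {M.ε (F x)} := by
    intro x
    rw [← hatJ]
    exact hat x ()
  have hεF0 : ∀ x, M.ε (F x) ≠ 0 := fun x => M.selfRel.ε_ne_zero () (F x) (hF0 x)
  have h𝔷P0 : ∀ x, 𝔷 x * P.map M.ε ≠ ⊥ := fun x => mul_ne_zero (h𝔷0 x) hP0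
  -- uniqueness
  have huniq : ∀ x (I' : Ideal SK), I' ≠ ⊥ → Module.finrank K (SK ⧸ I') = g →
      IdealEquiv I' (I x) → I' = I x := by
    rintro x I' hI'0 hI'g ⟨a, b, ha, hb, hab⟩
    have h1 : Ideal.span {a} * (I' * (𝔷 x * P.map M.ε)) = Ideal.span {b * M.ε (F x)} := by
      rw [← mul_assoc, hab, mul_assoc, hprod, Ideal.span_singleton_mul_span_singleton]
    have h2 : b * M.ε (F x) ∈ Ideal.span {a} := by
      rw [← Ideal.span_singleton_le_iff_mem, ← h1]
      exact Ideal.mul_le_left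
    obtain ⟨G, hG⟩ := Ideal.mem_span_singleton'.mp h2
    have hspan0 : Ideal.span {a} ≠ 0 := by
      rwa [ne_eq, Ideal.zero_eq_bot, Ideal.span_singleton_eq_bot]
    have h3 : I' * (𝔷 x * P.map M.ε) = Ideal.span {G} := by
      rw [← hG, mul_comm G a, ← Ideal.span_singleton_mul_span_singleton] at h1
      exact mul_left_cancel₀ hspan0 h1
    have hG0 : G ≠ 0 := by
      rintro rfl
      rw [zero_mul] at hG
      exact mul_ne_zero hb (hεF0 x) hG.symm
    have h4 : DK.deg G = d x + r + g := by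
      rw [← DK.finrank_quotient_span hG0, ← h3, DK.finrank_quotient_mul hI'0 (h𝔷P0 x), hI'g,
        ← hatJ, ((hJ x).codim ()).2]
      omega
    have h5 : G ∈ M.selfRel.at_ ((𝔷 x).comap M.ε * P) () := by
      rw [hatJ]
      have : Ideal.span {G} ≤ 𝔷 x * P.map M.ε := by
        rw [← h3]
        exact Ideal.mul_le_right
      exact (Ideal.span_singleton_le_iff_mem _).mp this
    obtain ⟨c, hc⟩ := hK x () G h5 h4.le
    have hc0 : c ≠ 0 := by
      rintro rfl
      rw [zero_smul] at hc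
      exact hG0 hc
    have h6 : Ideal.span {G} = Ideal.span {M.ε (F x)} := by
      rw [hc, Algebra.smul_def]
      exact Ideal.span_singleton_mul_left_unit ((Ne.isUnit hc0).map (algebraMap K SK)) _
    rw [← hprod, ← h3] at h6
    exact mul_right_cancel₀ (h𝔷P0 x) h6
  -- classes
  have hclsZ : ∀ x y, cls (Z x) * cls (Z y) = cls (Z (x + y)) := by
    intro x y
    rw [← cls_mul (hZ0 x) (hZ0 y)]
    exact (cls_eq_iff (mul_ne_zero (hZ0 x) (hZ0 y)) (hZ0 _)).mpr (hZadd x y)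
  have hclsZ0 : cls (Z 0) = 1 := by
    have := hclsZ 0 0
    rw [add_zero] at this
    exact mul_eq_left.mp this
  have hclsI : ∀ x, cls (I x) * cls (P.map M.ε) = cls (Z x) := by
    intro x
    have h1 := congrArg cls (hprod x)
    rw [cls_span (hεF0 x), cls_mul (hI0 x) (h𝔷P0 x), cls_mul (h𝔷0 x) hP0,
      ← (cls_eq_iff (hZ0 _) (h𝔷0 x)).mpr (h𝔷equiv x)] at h1
    have h2 := hclsZ (-x) x
    rw [neg_add_cancel, hclsZ0] at h2
    calc cls (I x) * cls (P.map M.ε)
        = cls (I x) * cls (P.map M.ε) * (cls (Z (-x)) * cls (Z x)) := by rw [h2, mul_one]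
      _ = (cls (I x) * (cls (Z (-x)) * cls (P.map M.ε))) * cls (Z x) := by
          simp only [mul_assoc, mul_left_comm]
      _ = cls (Z x) := by rw [h1, one_mul]
  refine ⟨I, fun x => ⟨?_, ?_⟩, fun x => ?_, fun x y => ?_, fun x y hxy => ?_, fun γ x => ?_, hI0,
    fun x y => by
      rw [← hclsI x, ← hclsI y, ← mul_assoc, ← mul_assoc, mul_comm (cls (I x)) (cls (I y))]⟩
  · rw [hIreg]; exact hR x
  · rw [hIreg]
  · refine ⟨M.selfRel.bar ((𝔷 x).comap M.ε * P), M.red (F x), hF0 x, ?_, ?_⟩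
    · rw [← hbar x, mul_comm]
      congr 1
      rw [redIdeal, hIreg]
      rfl
    · intro u hu hun
      rw [hFdeg] at hun
      exact hk x u hu hun
  · refine (cls_eq_iff (mul_ne_zero (hI0 x) (hI0 y)) (mul_ne_zero (hI0 _) (hI0 _))).mp ?_
    rw [cls_mul (hI0 x) (hI0 y), cls_mul (hI0 _) (hI0 _)]
    have h1 := hclsZ x y
    rw [← hclsI x, ← hclsI y, ← hclsI (x + y)] at h1
    have h0 := hclsI 0
    rw [hclsZ0] at h0
    have h2 : cls (I 0) = (cls (P.map M.ε))⁻¹ := eq_inv_of_mul_eq_one_left h0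
    rw [h2]
    calc cls (I x) * cls (I y) = (cls (I x) * cls (P.map M.ε) *
          (cls (I y) * cls (P.map M.ε))) * (cls (P.map M.ε))⁻¹ * (cls (P.map M.ε))⁻¹ := by
            rw [mul_mul_mul_comm]; group
      _ = _ := by rw [h1]; group
  · apply hZinj
    refine (cls_eq_iff (hZ0 x) (hZ0 y)).mp ?_
    rw [← hclsI x, ← hclsI y]
    have hxy' : I x = I y := hxy
    rw [hxy']
  · have hmap0 := map_equiv_ne_bot (hI0 x) (Act.τ γ)
    refine huniq (act γ x) _ hmap0 ?_ ?_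
    · rw [finrank_quotient_map (Act.τK γ) (Act.τ γ) (Act.τ_smul γ), hIcodim]
    · refine (cls_eq_iff hmap0 (hI0 _)).mp ?_
      have h1 : IdealEquiv (I x * P.map M.ε) (Z x) := by
        refine (cls_eq_iff (mul_ne_zero (hI0 x) hP0) (hZ0 x)).mp ?_
        rw [cls_mul (hI0 x) hP0, hclsI]
      have h2 := h1.map (Act.τ γ)
      have h3 : cls ((I x * P.map M.ε).map (Act.τ γ)) = cls ((Z x).map (Act.τ γ)) :=
        (cls_eq_iff (map_equiv_ne_bot (mul_ne_zero (hI0 x) hP0) _)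
          (map_equiv_ne_bot (hZ0 x) _)).mpr h2
      rw [Ideal.map_mul, hPinv, cls_mul hmap0 hP0,
        (cls_eq_iff (map_equiv_ne_bot (hZ0 x) _) (hZ0 _)).mpr (hZact γ x), ← hclsI] at h3
      exact mul_right_cancel h3


/-- Choice of regular ideals of codimension `g` in a translate of a finite group of ideal
classes, with control of their classes. -/
theorem exists_ideals_cls [IsAlgClosed K] [IsAlgClosed k] {Γ : Type*} (Act : ModelAct M Γ)
    {T : Type*} [AddCommGroup T] [Finite T] (act : Γ → T → T) (Z : T → Ideal SK)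
    (hZ0 : ∀ x, Z x ≠ ⊥) (hZadd : ∀ x y, IdealEquiv (Z x * Z y) (Z (x + y)))
    (hZinj : ∀ x y, IdealEquiv (Z x) (Z y) → x = y)
    (hZact : ∀ γ x, IdealEquiv ((Z x).map (Act.τ γ)) (Z (act γ x))) :
    ∃ I : T → Ideal SK,
      (∀ x, M.selfRel.IsReg ((I x).comap M.ε) g ∧ ((I x).comap M.ε).map M.ε = I x) ∧
      (∀ x, ∃ (𝔠 : Ideal Sk) (f₀ : Sk), f₀ ≠ 0 ∧ Ideal.span {f₀} = 𝔠 * M.redIdeal (I x) ∧
        ∀ u ∈ 𝔠, Dk.deg u ≤ Dk.deg f₀ → ∃ c : k, u = c • f₀) ∧
      (∀ x y, IdealEquiv (I x * I y) (I (x + y) * I 0)) ∧ Function.Injective I ∧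
      (∀ γ x, (I x).map (Act.τ γ) = I (act γ x)) ∧ (∀ x, I x ≠ ⊥) ∧
      ∀ x y, cls (I x) * cls (Z y) = cls (I y) * cls (Z x) := by
  haveI : Infinite (Sk →ₐ[k] k) := Dk.infinite_points
  exact exists_ideals_of_cls M Act (fun ρ => M.exists_point Act ρ) act Z hZ0 hZadd hZinj hZact

end Dedekind

end CurveModel

end Fermat.Agent.Flat
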