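import Mathlib
import Fermat.Agent.Flat.Assemble
import Fermat.Agent.Flat.BlockMain

/-!
# Congruences between the coordinates of two ideals with equivalent reductions
-/

set_option autoImplicit false
set_option linter.unusedSectionVars false
set_option linter.style.haveILetI false

noncomputable section

open Module IsLocalRing
open scoped TensorProduct

namespace Fermat.Agent.Flat

section Aux

/-- Non-special ideals are determined by their class. -/
theorem eq_of_equiv_of_nonspecial {κ R : Type*} [Field κ] [CommRing R] [IsDedekindDomain R]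
    [Algebra κ R] {g n₀ d : ℕ} (D : DegRing κ R g n₀) {I J c₀ : Ideal R} {f₀ : R} (hf₀ : f₀ ≠ 0)
    (hf₀c : Ideal.span {f₀} = c₀ * I)
    (hc₀ : ∀ u ∈ c₀, D.deg u ≤ D.deg f₀ → ∃ c : κ, u = c • f₀)
    (hI : Module.finrank κ (R ⧸ I) = d) (hJ : Module.finrank κ (R ⧸ J) = d)
    (hIJ : IdealEquiv I J) : I = J := by
  obtain ⟨a, b, ha, hb, hab⟩ := hIJ
  have hf₀' : (Ideal.span {f₀} : Ideal R) ≠ 0 := by
    rw [Ideal.zero_eq_bot, ne_eq, Ideal.span_singleton_eq_bot]; exact hf₀
  have ha' : (Ideal.span {a} : Ideal R) ≠ 0 := by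
    rw [Ideal.zero_eq_bot, ne_eq, Ideal.span_singleton_eq_bot]; exact ha
  have hb' : (Ideal.span {b} : Ideal R) ≠ 0 := by
    rw [Ideal.zero_eq_bot, ne_eq, Ideal.span_singleton_eq_bot]; exact hb
  have hc0 : c₀ ≠ 0 := by
    rintro rfl
    rw [zero_mul] at hf₀c
    exact hf₀' hf₀c
  have hI0 : I ≠ 0 := by
    rintro rfl
    rw [mul_zero] at hf₀c
    exact hf₀' hf₀c
  have h1 : Ideal.span {a * f₀} = Ideal.span {b} * (c₀ * J) := by
    rw [← Ideal.span_singleton_mul_span_singleton, hf₀c]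
    calc Ideal.span {a} * (c₀ * I) = c₀ * (Ideal.span {a} * I) := by ring
      _ = c₀ * (Ideal.span {b} * J) := by rw [hab]
      _ = _ := by ring
  have h2 : a * f₀ ∈ Ideal.span {b} := by
    have h5 : a * f₀ ∈ Ideal.span {b} * (c₀ * J) := by
      rw [← h1]; exact Ideal.mem_span_singleton_self _
    exact mem_left_of_mul h5
  obtain ⟨u, hu⟩ := Ideal.mem_span_singleton'.mp h2
  have hne : a * f₀ ≠ 0 := mul_ne_zero ha hf₀
  have hu0 : u ≠ 0 := by
    rintro rfl
    rw [zero_mul] at hu
    exact hne hu.symm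
  have h3 : Ideal.span {u} = c₀ * J := by
    rw [← hu, mul_comm u b, ← Ideal.span_singleton_mul_span_singleton] at h1
    exact mul_left_cancel₀ hb' h1
  have hJ0 : J ≠ 0 := by
    rintro rfl
    rw [mul_zero, Ideal.zero_eq_bot, Ideal.span_singleton_eq_bot] at h3
    exact hu0 h3
  have hdeg : D.deg u = D.deg f₀ := by
    rw [← D.finrank_quotient_span hu0, ← D.finrank_quotient_span hf₀, h3, hf₀c,
      D.finrank_quotient_mul hc0 hJ0, D.finrank_quotient_mul hc0 hI0, hI, hJ]
  have huc : u ∈ c₀ := mem_left_of_mul (h3 ▸ Ideal.mem_span_singleton_self u : u ∈ c₀ * J)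
  obtain ⟨c, hc⟩ := hc₀ u huc hdeg.le
  have h4 : Ideal.span {u} = Ideal.span {f₀} := span_eq_of_smul hu0 hc
  rw [h3, hf₀c] at h4
  exact (mul_left_cancel₀ hc0 h4).symm

end Aux

variable {K k SK Sk : Type*} [Field K] [Field k] [CommRing SK] [CommRing Sk] [Algebra K SK]
  [Algebra k Sk] {g n₀ : ℕ} {DK : DegRing K SK g n₀} {Dk : DegRing k Sk g n₀}
    {O S : Type*} [CommRing O] [IsDomain O] [ValuationRing O] [Algebra O K] [IsFractionRing O K]
    [CommRing S] [Algebra O S]

namespace CurveModel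

variable {M : CurveModel DK Dk O S}

variable [IsDomain SK] [IsDomain Sk] [IsDedekindDomain SK] [IsDedekindDomain Sk]

namespace Adapted

variable {X : Type*} {I : X → Ideal SK} {e : Fin g → S} (h : M.Adapted I e)

/-- Coordinates of ideals with the same reduction are congruent. -/
theorem cf_sub_mem {s t : X} (hst : M.redIdeal (I s) = M.redIdeal (I t)) (w : S) (i : Fin g) :
    h.cf s w i - h.cf t w i ∈ maximalIdeal O := by
  have hred : ∀ x, M.red w - ∑ i, M.resO (h.cf x w i) • M.red (e i) ∈ M.redIdeal (I x) := by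
    intro x
    have h1 := M.red_mem_redIdeal (h.cf_spec x w)
    rw [map_sub, map_sum] at h1
    simpa only [M.red_smul] using h1
  have h1 := hred s
  have h2 := hred t
  rw [← hst] at h2
  have h3 := Ideal.sub_mem _ h2 h1
  have h4 : (M.red w - ∑ i, M.resO (h.cf t w i) • M.red (e i)) -
      (M.red w - ∑ i, M.resO (h.cf s w i) • M.red (e i)) =
      ∑ i, (M.resO (h.cf s w i) - M.resO (h.cf t w i)) • M.red (e i) := by
    simp only [sub_smul, Finset.sum_sub_distrib]
    ring
  rw [h4] at h3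
  -- independence
  have hcod := ((h.reg s).bar_codim).2
  rw [M.selfRel_bar_comap] at hcod
  let v : Fin g → Sk ⧸ M.redIdeal (I s) := fun i => Ideal.Quotient.mk _ (M.red (e i))
  have hspan : ⊤ ≤ Submodule.span k (Set.range v) := by
    rintro x -
    obtain ⟨y, rfl⟩ := Ideal.Quotient.mk_surjective x
    obtain ⟨c, hc⟩ := h.span s y
    rw [Submodule.mem_span_range_iff_exists_fun]
    refine ⟨c, ?_⟩
    rw [← Ideal.Quotient.eq, map_sum] at hc
    rw [hc]
    exact Finset.sum_congr rfl fun i _ => rfl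
  have hli : LinearIndependent k v := by
    apply linearIndependent_of_top_le_span_of_card_eq_finrank hspan
    rw [Fintype.card_fin]
    exact hcod.symm
  rw [Fintype.linearIndependent_iff] at hli
  have h5 := hli (fun i => M.resO (h.cf s w i) - M.resO (h.cf t w i)) (by
    have h6 := (Ideal.Quotient.eq_zero_iff_mem).mpr h3
    rw [map_sum] at h6
    rw [← h6]
    exact Finset.sum_congr rfl fun i _ => rfl) i
  rw [← M.resO_eq_zero_iff, map_sub]
  exact h5

end Adapted

/-- **Generators from a nonspecial family of ideals**, with the congruences between the values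
at two points whose ideals have equivalent reductions. -/
theorem exists_generators_of_ideals_congr [Infinite k] {Γ : Type*} (Act : ModelAct M Γ)
    {T : Type*} [AddCommGroup T] [Finite T] (act : Γ → T → T) (I : T → Ideal SK)
    (hreg : ∀ x, M.selfRel.IsReg ((I x).comap M.ε) g)
    (hns : ∀ x, ∃ (c₀ : Ideal Sk) (f₀ : Sk), f₀ ≠ 0 ∧ Ideal.span {f₀} = c₀ * M.redIdeal (I x) ∧
      ∀ u ∈ c₀, Dk.deg u ≤ Dk.deg f₀ → ∃ c : k, u = c • f₀)
    (hadd : ∀ x y, IdealEquiv (I x * I y) (I (x + y) * I 0))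
    (hinj : Function.Injective I)
    (hact : ∀ γ x, (I x).map (Act.τ γ) = I (act γ x)) :
    ∃ Φ : Set (T → K), Φ.Finite ∧ (∀ φ ∈ Φ, ∀ t, ∃ a : O, algebraMap O K a = φ t) ∧
      (∀ φ ∈ Φ, ∀ γ t, φ (act γ t) = Act.τK γ (φ t)) ∧
      (∀ s t, (∀ φ ∈ Φ, φ s = φ t) → s = t) ∧
      (∀ φ ∈ Φ, ∃ (n : ℕ) (a b : Fin n → T → K), (∀ i, a i ∈ Algebra.adjoin O Φ) ∧
        (∀ i, b i ∈ Algebra.adjoin O Φ) ∧ ∀ s t, φ (s + t) = ∑ i, a i s * b i t) ∧
      ∀ s t, IdealEquiv (M.redIdeal (I s)) (M.redIdeal (I t)) →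
        ∀ φ ∈ Φ, ∃ a ∈ maximalIdeal O, algebraMap O K a = φ s - φ t := by
  obtain ⟨e, he, h⟩ := exists_adapted Act I hreg
  obtain ⟨W, hWfin, hWinv, hW⟩ := exists_inv_generators Act
  refine ⟨toK O K T '' h.gens W, (h.finite_gens hWfin).image _, ?_, ?_, ?_, ?_, ?_⟩
  · rintro _ ⟨f, hf, rfl⟩ t
    exact ⟨f t, rfl⟩
  · rintro _ ⟨_, ⟨w, hw, i, rfl⟩, rfl⟩ γ t
    refine h.cf_equivariant Act act hact he γ t ?_ i
    rcases hw with rfl | hw | ⟨v, hv, l, rfl⟩
    · exact map_one _
    · exact hWinv w hw γ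
    · rw [map_mul, hWinv v hv, he]
  · intro s t hst
    apply hinj
    refine h.eq_of_cf_eq fun w => funext fun i => ?_
    have h1 : ∀ f ∈ Algebra.adjoin O (h.gens W), f s = f t := by
      intro f hf
      induction hf using Algebra.adjoin_induction with
      | mem f hf =>
        have h2 := hst _ ⟨f, hf, rfl⟩
        rw [toK_apply, toK_apply] at h2
        exact IsFractionRing.injective O K h2
      | algebraMap r => rfl
      | add x y _ _ hx hy => rw [Pi.add_apply, Pi.add_apply, hx, hy]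
      | mul x y _ _ hx hy => rw [Pi.mul_apply, Pi.mul_apply, hx, hy]
    exact h1 _ (h.cff_mem_adjoin hW w i)
  · rintro _ ⟨_, ⟨w, -, i, rfl⟩, rfl⟩
    have hpull : ∀ (p : T × T → T) (hp : (pullAlg O p) '' h.gens W ⊆
        (Algebra.adjoin O ((pullAlg O (Prod.fst : T × T → T)) '' h.gens W ∪
          (pullAlg O (Prod.snd : T × T → T)) '' h.gens W) : Set (T × T → O))) (w : S) (i : Fin g),
        (fun q : T × T => h.cf (p q) w i) ∈
          Algebra.adjoin O ((pullAlg O (Prod.fst : T × T → T)) '' h.gens W ∪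
            (pullAlg O (Prod.snd : T × T → T)) '' h.gens W) := by
      intro p hp w i
      have h1 : pullAlg O p (h.cff w i) ∈ (Algebra.adjoin O (h.gens W)).map (pullAlg O p) :=
        ⟨_, h.cff_mem_adjoin hW w i, rfl⟩
      rw [AlgHom.map_adjoin] at h1
      exact Algebra.adjoin_le hp h1
    have hmem := h.comul_mem hns hadd
      (Algebra.adjoin O ((pullAlg O (Prod.fst : T × T → T)) '' h.gens W ∪
        (pullAlg O (Prod.snd : T × T → T)) '' h.gens W))
      (hpull Prod.fst (Set.subset_union_left.trans Algebra.subset_adjoin))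
      (hpull Prod.snd (Set.subset_union_right.trans Algebra.subset_adjoin)) w i
    obtain ⟨n, a, b, ha, hb, hab⟩ := exists_decomposition _ hmem
    refine ⟨n, fun i => toK O K T (a i), fun i => toK O K T (b i), fun i => ?_, fun i => ?_,
      fun s t => ?_⟩
    · rw [← AlgHom.map_adjoin]
      exact ⟨_, ha i, rfl⟩
    · rw [← AlgHom.map_adjoin]
      exact ⟨_, hb i, rfl⟩
    · rw [toK_apply]
      have h1 := hab s t
      show algebraMap O K (h.cf (s + t) w i) = _
      rw [h1, map_sum]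
      refine Finset.sum_congr rfl fun j _ => ?_
      rw [map_mul]
      rfl
  · rintro s t hst _ ⟨_, ⟨w, -, i, rfl⟩, rfl⟩
    obtain ⟨c₀, f₀, hf₀, hspan, hdim⟩ := hns s
    have hcod : ∀ x, Module.finrank k (Sk ⧸ M.redIdeal (I x)) = g := by
      intro x
      have := ((h.reg x).bar_codim).2
      rwa [M.selfRel_bar_comap] at this
    have heq := eq_of_equiv_of_nonspecial Dk hf₀ hspan hdim (hcod s) (hcod t) hst
    refine ⟨h.cf s w i - h.cf t w i, h.cf_sub_mem heq w i, ?_⟩
    rw [map_sub]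
    rfl

end CurveModel

end Fermat.Agent.Flat
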