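import Mathlib
import Fermat.Agent.Flat.Descent
import Fermat.Agent.FlatOrd.Model

/-!
# The order of equivariant functions attached to local generators

Refinement of `isFlatModel_of_local_generators`: the order itself, together with the congruences
it inherits from the generators.
-/

set_option autoImplicit false
set_option linter.style.haveILetI false

noncomputable section

open scoped TensorProduct

namespace Fermat.Agent.RT.UnitRoot

open Fermat.Agent.Flat

open Descent in
/-- Local generators produce a global order of equivariant functions, closed under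
comultiplication; congruences (modulo the place) satisfied by the generators on a set `X` stable
under the decomposition group are inherited by the order. -/
theorem exists_order_of_local_generators (ℓ : ℕ) [hℓ : Fact ℓ.Prime] (A : ValuationSubring Qbar)
    (hA : A.LiesOverPrime ℓ) {T : Type} [AddCommGroup T] [Finite T] (act : GQ → T → T)
    (h1 : ∀ t, act 1 t = t) (hmul : ∀ σ τ t, act (σ * τ) t = act σ (act τ t))
    (hadd : ∀ σ s t, act σ (s + t) = act σ s + act σ t)
    (hsm : ∀ t, ∃ L : IntermediateField ℚ Qbar, FiniteDimensional ℚ L ∧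
      ∀ σ : GQ, (∀ x ∈ L, σ x = x) → act σ t = t)
    (Φ : Set (T → Qbar)) (hfin : Φ.Finite) (hint : ∀ φ ∈ Φ, ∀ t, φ t ∈ A)
    (hI : ∀ φ ∈ Φ, ∀ σ ∈ A.inertiaSubgroupIn ℚ, ∀ t, φ (act σ t) = σ (φ t))
    (hsep : ∀ s t, (∀ φ ∈ Φ, φ s = φ t) → s = t)
    (hcomul : ∀ φ ∈ Φ, ∃ (n : ℕ) (a b : Fin n → T → Qbar), (∀ i, a i ∈ Algebra.adjoin A Φ) ∧
      (∀ i, b i ∈ Algebra.adjoin A Φ) ∧ ∀ s t, φ (s + t) = ∑ i, a i s * b i t) :
    ∃ H : Subalgebra (ZL ℓ) (T → Qbar), Module.Finite (ZL ℓ) H ∧
      (∀ h ∈ H, ∀ (σ : GQ) (t : T), h (act σ t) = σ (h t)) ∧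
      (∀ s t, (∀ h ∈ H, h s = h t) → s = t) ∧
      (∀ h ∈ H, ∃ (n : ℕ) (a b : Fin n → T → Qbar), (∀ i, a i ∈ H) ∧ (∀ i, b i ∈ H) ∧
        ∀ s t, h (s + t) = ∑ i, a i s * b i t) ∧
      (∀ h ∈ H, ∀ t, h t ∈ A) ∧
      ∀ X : Set T, (∀ δ ∈ A.decompositionSubgroup ℚ, ∀ t ∈ X, act δ t ∈ X) →
        (∀ φ ∈ Φ, ∀ t ∈ X, φ t - φ 0 ∈ A.nonunits) →
        ∀ h ∈ H, ∀ t ∈ X, h t - h 0 ∈ A.nonunits := by
  classical
  -- the saturation of `Φ` under the decomposition group
  set D := A.decompositionSubgroup ℚ with hDdef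
  set Φ' : Set (T → Qbar) := {f | ∃ δ ∈ D, ∃ φ ∈ Φ, f = tw act δ φ} with hΦ'def
  have hΦΦ' : Φ ⊆ Φ' := fun φ hφ => ⟨1, D.one_mem, φ, hφ, (tw_one h1 φ).symm⟩
  have hfin' : Φ'.Finite := by
    refine (hfin.biUnion (t := fun φ => Set.range (fun σ : GQ => tw act σ φ))
      (fun φ _ => finite_range_tw h1 hmul hsm φ)).subset ?_
    rintro _ ⟨δ, -, φ, hφ, rfl⟩
    exact Set.mem_biUnion hφ ⟨δ, rfl⟩
  have hint' : ∀ f ∈ Φ', ∀ t, f t ∈ A := by
    rintro _ ⟨δ, hδ, φ, hφ, rfl⟩ t
    exact apply_mem_of_mem_decomposition A hδ (hint φ hφ _)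
  have hI' : ∀ f ∈ Φ', ∀ σ ∈ A.inertiaSubgroupIn ℚ, tw act σ f = f := by
    rintro _ ⟨δ, hδ, φ, hφ, rfl⟩ σ hσ
    have h2 : σ * δ = δ * (δ⁻¹ * σ * δ) := by group
    rw [← tw_mul hmul, h2, tw_mul hmul,
      (tw_eq_iff h1 hmul _ φ).mpr (hI φ hφ _ (conj_mem_inertia A hδ hσ))]
  set M : Subalgebra A (T → Qbar) := Algebra.adjoin A Φ' with hMdef
  have hval : ∀ f ∈ M, ∀ t, f t ∈ A := by
    intro f hf
    induction hf using Algebra.adjoin_induction with
    | mem x hx => exact hint' x hx
    | algebraMap r => exact fun t => r.2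
    | add x y _ _ hx hy => exact fun t => add_mem (hx t) (hy t)
    | mul x y _ _ hx hy => exact fun t => mul_mem (hx t) (hy t)
  have hDM : ∀ δ ∈ D, ∀ f ∈ M, tw act δ f ∈ M := by
    intro δ hδ f hf
    induction hf using Algebra.adjoin_induction with
    | mem x hx =>
      obtain ⟨δ', hδ', φ, hφ, rfl⟩ := hx
      rw [← tw_mul hmul]
      exact Algebra.subset_adjoin ⟨δ * δ', D.mul_mem hδ hδ', φ, hφ, rfl⟩
    | algebraMap r => exact const_mem A M (apply_mem_of_mem_decomposition A hδ r.2)
    | add x y _ _ hx hy => rw [map_add]; exact M.add_mem hx hy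
    | mul x y _ _ hx hy => rw [map_mul]; exact M.mul_mem hx hy
  have hfg : (Subalgebra.toSubmodule M).FG :=
    fg_adjoin_of_finite hfin' fun f hf => isIntegral_of_values A f (hint' f hf)
  have hsepM : ∀ s t, (∀ f ∈ M, f s = f t) → s = t := fun s t h =>
    hsep s t fun φ hφ => h φ (Algebra.subset_adjoin (hΦΦ' hφ))
  -- the invariant functions span `M`
  set S : Set (T → Qbar) := {f | f ∈ Subalgebra.toSubmodule M ∧ ∀ σ, tw act σ f = f} with hSdef
  have hspan : Submodule.span A S = Subalgebra.toSubmodule M := by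
    refine le_antisymm (Submodule.span_le.mpr fun f hf => hf.1) ?_
    refine Submodule.le_of_le_smul_of_le_jacobson_bot (I := IsLocalRing.maximalIdeal A) hfg
      (IsLocalRing.maximalIdeal_le_jacobson ⊥) ?_
    conv_lhs => rw [hMdef, Algebra.adjoin_eq_span]
    refine Submodule.span_le.mpr fun f hf => ?_
    have hfM : f ∈ M := by
      have : (Submonoid.closure Φ' : Submonoid (T → Qbar)) ≤ M.toSubsemiring.toSubmonoid :=
        Submonoid.closure_le.mpr Algebra.subset_adjoin
      exact this hf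
    refine mem_span_sup A hℓ.out hA h1 hmul (Subalgebra.toSubmodule M) hDM
      (exists_pow_smul_mem A hℓ.out hA M hval hsepM) f hfM ?_ (isOpen_stab h1 hmul hsm f)
    intro σ hσ
    have hle : (Submonoid.closure Φ' : Submonoid (T → Qbar)) ≤
        { carrier := {g | tw act σ g = g}
          one_mem' := map_one _
          mul_mem' := fun {a b} ha hb => by
            show tw act σ (a * b) = a * b
            rw [map_mul, ha, hb] } :=
      Submonoid.closure_le.mpr fun g hg => hI' g hg σ hσ
    exact hle hf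
  -- a basis of invariant functions
  obtain ⟨n, e, heS, hlin, hespan⟩ := exists_basis A (Subalgebra.toSubmodule M) hfg S hspan
  have heM : ∀ i, e i ∈ M := fun i => (heS i).1
  have heeq : ∀ i σ t, e i (act σ t) = σ (e i t) := fun i σ t =>
    (tw_eq_iff h1 hmul σ (e i)).mp ((heS i).2 σ) t
  have hsurj : ∀ σ, Function.Surjective (act σ) := fun σ t =>
    ⟨act σ⁻¹ t, act_act_inv h1 hmul σ t⟩
  have hact0 : ∀ σ, act σ 0 = 0 := by
    intro σ
    have := hadd σ 0 0
    rw [add_zero] at this
    simpa using this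
  let H := invAlg hℓ.out A hA act M
  have hHmem : ∀ f, f ∈ H ↔ f ∈ M ∧ ∀ σ t, f (act σ t) = σ (f t) := fun f => Iff.rfl
  have heH : ∀ i, e i ∈ H := fun i => ⟨heM i, heeq i⟩
  -- `H` is spanned by the basis over `ZL`
  have hHspan : ∀ f ∈ H, ∃ c : Fin n → ZL ℓ, f = ∑ i, c i • e i := by
    intro f hf
    obtain ⟨hfM, hfeq⟩ := hf
    have hf2 : f ∈ Submodule.span A (Set.range e) := by rw [hespan]; exact hfM
    rw [Submodule.mem_span_range_iff_exists_fun] at hf2
    obtain ⟨c, hc⟩ := hf2
    have hc' : f = ∑ i, (c i : Qbar) • e i := hc.symm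
    choose q hq using fun i => coeff_rational act hsurj e heeq hlin (fun i => (c i : Qbar)) f hc'
      (fun σ t => hfeq σ t) i
    refine ⟨fun i => ⟨q i, mem_ZL_of_mem A hℓ.out hA (by rw [hq i]; exact (c i).2)⟩, ?_⟩
    rw [hc']
    refine Finset.sum_congr rfl fun i _ => ?_
    rw [← hq i]
    funext t
    exact (Algebra.smul_def (q i) (e i t)).symm
  haveI : Module.Finite (ZL ℓ) H := by
    refine ⟨⟨Finset.univ.image (fun i => (⟨e i, heH i⟩ : H)), ?_⟩⟩
    rw [Finset.coe_image, Finset.coe_univ, Set.image_univ, eq_top_iff]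
    rintro ⟨f, hf⟩ -
    obtain ⟨c, hc⟩ := hHspan f hf
    rw [Submodule.mem_span_range_iff_exists_fun]
    refine ⟨c, Subtype.ext ?_⟩
    refine Eq.trans ?_ hc.symm
    rw [AddSubmonoidClass.coe_finsetSum]
    rfl
  refine ⟨H, inferInstance, fun h hh σ t => hh.2 σ t, ?_, ?_, fun h hh t => hval h hh.1 t, ?_⟩
  · -- separation
    intro s t hst
    refine hsepM s t fun f hf => ?_
    have hf2 : f ∈ Submodule.span A (Set.range e) := by rw [hespan]; exact hf
    rw [Submodule.mem_span_range_iff_exists_fun] at hf2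
    obtain ⟨c, rfl⟩ := hf2
    rw [Finset.sum_apply, Finset.sum_apply]
    refine Finset.sum_congr rfl fun i _ => ?_
    rw [Pi.smul_apply, Pi.smul_apply, hst (e i) (heH i)]
  · -- comultiplication
    have hΔ : ∀ f ∈ M, (fun p : T × T => f (p.1 + p.2)) ∈ boxAlg A M := by
      intro f hf
      induction hf using Algebra.adjoin_induction with
      | mem x hx =>
        obtain ⟨δ, hδ, φ, hφ, rfl⟩ := hx
        obtain ⟨m, a, b, ha, hb, hab⟩ := hcomul φ hφ
        have hsub : Algebra.adjoin A Φ ≤ M := Algebra.adjoin_mono hΦΦ'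
        have hsum : (fun p : T × T => tw act δ φ (p.1 + p.2)) =
            ∑ i, box (tw act δ (a i)) (tw act δ (b i)) := by
          funext p
          rw [Finset.sum_apply, tw_apply, hadd, hab, map_sum]
          refine Finset.sum_congr rfl fun i _ => ?_
          exact map_mul δ _ _
        rw [hsum]
        refine sum_mem fun i _ => Algebra.subset_adjoin ?_
        exact ⟨_, hDM δ hδ _ (hsub (ha i)), _, hDM δ hδ _ (hsub (hb i)), rfl⟩
      | algebraMap r => exact (boxAlg A M).algebraMap_mem r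
      | add x y _ _ hx hy => exact (boxAlg A M).add_mem hx hy
      | mul x y _ _ hx hy => exact (boxAlg A M).mul_mem hx hy
    intro h hh
    have hmem : (fun p : T × T => h (p.1 + p.2)) ∈
        Submodule.span A (Set.range (fun p : Fin n × Fin n => box (e p.1) (e p.2))) := by
      have h3 : (fun p : T × T => h (p.1 + p.2)) ∈ Subalgebra.toSubmodule (boxAlg A M) :=
        hΔ h hh.1
      rw [boxAlg_eq_span] at h3
      refine (Submodule.span_le.mpr ?_) h3
      rintro _ ⟨f, hf, g, hg, rfl⟩
      exact box_mem_span A e hespan hf hg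
    rw [Submodule.mem_span_range_iff_exists_fun] at hmem
    obtain ⟨c, hc⟩ := hmem
    let actX : GQ → T × T → T × T := fun σ p => (act σ p.1, act σ p.2)
    have hsurjX : ∀ σ, Function.Surjective (actX σ) := by
      rintro σ ⟨s, t⟩
      obtain ⟨s', hs'⟩ := hsurj σ s
      obtain ⟨t', ht'⟩ := hsurj σ t
      exact ⟨(s', t'), Prod.ext hs' ht'⟩
    have heX : ∀ (i : Fin n × Fin n) σ x, box (e i.1) (e i.2) (actX σ x) =
        σ (box (e i.1) (e i.2) x) := by
      intro i σ x
      show e i.1 (act σ x.1) * e i.2 (act σ x.2) = σ (e i.1 x.1 * e i.2 x.2)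
      rw [heeq, heeq, map_mul]
    choose q hq using fun i => coeff_rational actX hsurjX
      (fun p : Fin n × Fin n => box (e p.1) (e p.2)) heX (linearIndependent_box e hlin)
      (fun i => (c i : Qbar)) (fun p : T × T => h (p.1 + p.2)) hc.symm
      (fun σ x => by
        show h (act σ x.1 + act σ x.2) = σ (h (x.1 + x.2))
        rw [← hadd, hh.2]) i
    let d : Fin n × Fin n → ZL ℓ := fun i =>
      ⟨q i, mem_ZL_of_mem A hℓ.out hA (by rw [hq i]; exact (c i).2)⟩
    refine ⟨n, e, fun i => ∑ j, d (i, j) • e j, heH, fun i => ?_, fun s t => ?_⟩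
    · exact sum_mem fun j _ => H.smul_mem (heH j) _
    · have h4 := congrFun hc (s, t)
      rw [Finset.sum_apply, Fintype.sum_prod_type] at h4
      rw [← h4]
      refine Finset.sum_congr rfl fun i _ => ?_
      show _ = e i s * (∑ j, d (i, j) • e j) t
      rw [Finset.sum_apply, Finset.mul_sum]
      refine Finset.sum_congr rfl fun j _ => ?_
      have h5 : (d (i, j) • e j) t = (c (i, j) : Qbar) * e j t := by
        rw [← hq (i, j)]
        exact Algebra.smul_def (q (i, j)) (e j t)
      rw [h5]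
      show (c (i, j) : Qbar) * (e i s * e j t) = _
      ring
  · -- congruences
    intro X hX hΦX h hh
    have hnonmul : ∀ {x y : Qbar}, x ∈ A → y ∈ A.nonunits → x * y ∈ A.nonunits :=
      fun hx hy => FrobExists.mul_mem_nonunits A hx hy
    have hnonadd : ∀ {x y : Qbar}, x ∈ A.nonunits → y ∈ A.nonunits → x + y ∈ A.nonunits :=
      fun hx hy => FlatOrd.Model.FlatModel.nonunits_add hx hy
    have hzero : (0 : Qbar) ∈ A.nonunits := FlatOrd.Model.FlatModel.nonunits_zero
    have hM : ∀ f ∈ M, ∀ t ∈ X, f t - f 0 ∈ A.nonunits := by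
      intro f hf
      induction hf using Algebra.adjoin_induction with
      | mem x hx =>
        obtain ⟨δ, hδ, φ, hφ, rfl⟩ := hx
        intro t ht
        have h2 : act δ⁻¹ t ∈ X := hX _ (D.inv_mem hδ) t ht
        have h3 := hΦX φ hφ _ h2
        rw [tw_apply, tw_apply, hact0, ← map_sub]
        rw [ValuationSubring.mem_nonunits_iff_or] at h3 ⊢
        rcases h3 with h3 | h3
        · left; rw [h3, map_zero]
        · right
          intro h5
          apply h3
          have h7 := apply_mem_of_mem_decomposition A (D.inv_mem hδ) h5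
          rw [← map_inv₀] at h7
          have h8 : δ⁻¹ (δ ((φ (act δ⁻¹ t) - φ 0)⁻¹)) = (φ (act δ⁻¹ t) - φ 0)⁻¹ := by
            rw [← AlgEquiv.mul_apply, inv_mul_cancel, AlgEquiv.one_apply]
          rwa [h8] at h7
      | algebraMap r => intro t _; rw [show (algebraMap A (T → Qbar) r) t -
          (algebraMap A (T → Qbar) r) 0 = 0 from sub_self _]; exact hzero
      | add x y _ _ hx hy =>
        intro t ht
        rw [Pi.add_apply, Pi.add_apply, add_sub_add_comm]
        exact hnonadd (hx t ht) (hy t ht)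
      | mul x y hxM hyM hx hy =>
        intro t ht
        have h2 : (x * y) t - (x * y) 0 = x t * (y t - y 0) + y 0 * (x t - x 0) := by
          rw [Pi.mul_apply, Pi.mul_apply]; ring
        rw [h2]
        exact hnonadd (hnonmul (hval x hxM t) (hy t ht)) (hnonmul (hval y hyM 0) (hx t ht))
    exact hM h hh.1

end Fermat.Agent.RT.UnitRoot
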