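import Mathlib
import Fermat.Agent.Flat.ConstModel
import Fermat.Agent.Flat.Choice
import Fermat.Agent.RR.HoloPoints
import Fermat.Agent.JRED.ESAbstract

/-!
# Reduction of ideals and reduction of divisors

For a regular ideal `I` of the holomorphy ring, with divisor `D`, the reduced ideal has divisor
`r_* D`.
-/

set_option autoImplicit false
set_option linter.unusedSectionVars false
set_option linter.overlappingInstances false
set_option linter.style.haveILetI false

open IsLocalRing AlgebraicCurve Fermat.Agent.RR Fermat.Agent.JRED Fermat.Agent.Flat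
  Fermat.Agent.Flat.ConstModel
open scoped nonZeroDivisors

noncomputable section

namespace Fermat.Agent.RT.UnitRoot

section Div

variable {K F : Type*} [Field K] [Field F] [Algebra K F] [IsAlgClosed K] [RR.FunctionField K F]

theorem pointsDiv_nonneg (P : Place K F) (s : Multiset (holo P →ₐ[K] K)) :
    0 ≤ pointsDiv P s := by
  induction s using Multiset.induction_on with
  | empty => rw [pointsDiv_zero]
  | cons x s ih =>
    rw [pointsDiv_cons]
    exact add_nonneg (Finsupp.single_nonneg.mpr zero_le_one) ih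

theorem pointsDiv_self (P : Place K F) (s : Multiset (holo P →ₐ[K] K)) :
    pointsDiv P s P = 0 := by
  induction s using Multiset.induction_on with
  | empty => rw [pointsDiv_zero, Finsupp.zero_apply]
  | cons x s ih =>
    classical
    rw [pointsDiv_cons, Finsupp.add_apply, ih, add_zero, Finsupp.single_apply,
      if_neg (placeOf_ne P x)]

/-- The divisor of an ideal. -/
theorem exists_divisor (P : Place K F) {I : Ideal (holo P)} (hI : I ≠ ⊥) :
    ∃ D : Divisor K F, 0 ≤ D ∧ D P = 0 ∧
      Divisor.degree D = Module.finrank K (holo P ⧸ I) ∧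
      Jf P D = (I : FractionalIdeal (holo P)⁰ F) := by
  obtain ⟨s, rfl⟩ := Fermat.Agent.MW.exists_eq_idl (curveAlg P) hI
  refine ⟨pointsDiv P s, pointsDiv_nonneg P s, pointsDiv_self P s, ?_, Jf_pointsDiv P s⟩
  rw [degree_pointsDiv]
  have h1 := Fermat.Agent.MW.col_idl (curveAlg P) s
  rw [← h1]
  rfl

theorem classHom_eq_cls {P : Place K F} {I : Ideal (holo P)} (hI : I ≠ ⊥) {D : Divisor K F}
    (hD : Jf P D = (I : FractionalIdeal (holo P)⁰ F)) :
    classHom P D = Additive.ofMul (cls I) := by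
  rw [classHom_apply, cls_of_ne hI, ← ClassGroup.mk_mk0 F]
  congr 2
  apply Units.ext
  rw [coe_Junit, FractionalIdeal.coe_mk0, hD]

end Div

variable {K k : Type*} [Field K] [Field k] {A : ValuationSubring K} {π : A →+* k}
  {F F' : Type*} [Field F] [Field F'] [Algebra K F] [Algebra k F']
  (C : ConstRed A π F F') {P : Place K F}
  [IsAlgClosed K] [IsAlgClosed k] [RR.FunctionField K F] [RR.FunctionField k F']
  {r : Place K F → Place k F'} (hr : C.IsPlaceMap r) (hπ : Function.Surjective π)
  (hg : genusFF K F = genusFF k F')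

/-- The reduction of the divisor of a function. -/
theorem mapDomain_eq_ord {s : ring C P} (hs : red C hr s ≠ 0) (Q : Place k F') :
    Finsupp.mapDomain r (divOf (K := K) ((s : holo P) : F)) Q =
      Q.ord ((red C hr s : holo (r P)) : F') := by
  refine (ord_res_eq C hr ⟨((s : holo P) : F), s.2⟩ (fun h => hs (Subtype.ext h)) Q).symm

theorem redIdeal_le {I : Ideal (holo P)} {D : Divisor K F} 
    (hD : Jf P D = (I : FractionalIdeal (holo P)⁰ F)) :
    (((ConstModel.model C hr hπ hg).redIdeal I : Ideal (holo (r P))) :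
      FractionalIdeal (holo (r P))⁰ F') ≤ Jf (r P) (Finsupp.mapDomain r D) := by
  classical
  intro x hx
  obtain ⟨y, hy, rfl⟩ := (FractionalIdeal.mem_coeIdeal _).mp hx
  obtain ⟨s, hs, rfl⟩ := (CurveModel.mem_redIdeal _).mp hy
  rw [mem_Jf]
  intro v hv
  by_cases h0 : red C hr s = 0
  · left
    exact congrArg Subtype.val h0
  right
  have hs0 : ((s : holo P) : F) ≠ 0 := by
    intro h
    apply h0
    have : s = 0 := Subtype.ext (Subtype.ext h)
    rw [this, map_zero]
  have hmem : ((s : holo P) : F) ∈ Jf P D := by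
    rw [hD]
    exact FractionalIdeal.mem_coeIdeal_of_mem _ hs
  rw [mem_Jf_of_ne_zero hs0] at hmem
  have h1 := mapDomain_eq_ord C hr h0 v
  show Finsupp.mapDomain r D v ≤ v.ord ((red C hr s : holo (r P)) : F')
  rw [← h1]
  obtain ⟨t, ht, hsum, htmem⟩ := ConstModel.mapDomain_apply_eq r (divOf (K := K) ((s : holo P) : F) - D) v
  have h2 : 0 ≤ Finsupp.mapDomain r (divOf (K := K) ((s : holo P) : F) - D) v := by
    rw [hsum]
    refine Finset.sum_nonneg fun w hw => ?_
    have hwP : w ≠ P := by
      rintro rfl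
      exact hv (ht _ hw).symm
    rw [Finsupp.sub_apply, divOf_apply, sub_nonneg]
    exact hmem w hwP
  have h3 : Finsupp.mapDomain r (divOf (K := K) ((s : holo P) : F) - D) v =
      Finsupp.mapDomain r (divOf (K := K) ((s : holo P) : F)) v - Finsupp.mapDomain r D v := by
    have := congrArg (fun E => E v) (map_sub (Finsupp.mapDomain.addMonoidHom r)
      (divOf (K := K) ((s : holo P) : F)) D)
    exact this
  rw [h3] at h2
  linarith

/-- The places in the divisor of a regular ideal do not reduce to the reduction of `P`. -/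
theorem divisor_eq_zero {I : Ideal (holo P)} {d : ℕ}
    (hI : (ConstModel.model C hr hπ hg).selfRel.IsReg
      (I.comap (ConstModel.model C hr hπ hg).ε) d)
    {D : Divisor K F} (hD0 : 0 ≤ D) (hDP : D P = 0)
    (hD : Jf P D = (I : FractionalIdeal (holo P)⁰ F)) {w : Place K F} (hw : r w = r P) :
    D w = 0 := by
  classical
  by_cases hwP : w = P
  · rw [hwP, hDP]
  obtain ⟨n, hn⟩ := hI.exists_mem_deg
  obtain ⟨h, hh, hfil, hdeg, hne⟩ := hn n le_rfl
  have hh' : (h : holo P) ∈ I := hh
  have hfil' : pdeg P ((h : holo P) : F) ≤ n := hfil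
  have hdeg' : pdeg (r P) ((red C hr h : holo (r P)) : F') = n := hdeg
  have hne' : red C hr h ≠ 0 := hne
  have hs0 : ((h : holo P) : F) ≠ 0 := by
    intro h1
    apply hne'
    have : h = 0 := Subtype.ext (Subtype.ext h1)
    rw [this, map_zero]
  have hmem : ((h : holo P) : F) ∈ Jf P D := by
    rw [hD]
    exact FractionalIdeal.mem_coeIdeal_of_mem _ hh'
  rw [mem_Jf_of_ne_zero hs0] at hmem
  have h1 := mapDomain_eq_ord C hr hne' (r P)
  obtain ⟨t, ht, hsum, htmem⟩ := ConstModel.mapDomain_apply_eq r (divOf (K := K) ((h : holo P) : F)) (r P)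
  rw [hsum] at h1
  have h2 := pdeg_eq (red C hr h).2
  have h3 := pdeg_eq (h : holo P).2
  rw [hdeg'] at h2
  have hnn : ∀ x ∈ t, x ≠ P → D x ≤ divOf (K := K) ((h : holo P) : F) x := by
    intro x hx hxP
    rw [divOf_apply]
    exact hmem x hxP
  have hDw := hD0 w
  rw [Finsupp.zero_apply] at hDw
  by_contra hcon
  have hpos : 0 < D w := lt_of_le_of_ne hDw (Ne.symm hcon)
  have hwt : w ∈ t := by
    refine htmem w hw fun h4 => ?_
    rw [divOf_apply] at h4
    have := hmem w hwP
    omega
  have hge : P.ord ((h : holo P) : F) + D w ≤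
      ∑ x ∈ t, divOf (K := K) ((h : holo P) : F) x := by
    by_cases hPt : P ∈ t
    · rw [← Finset.add_sum_erase t _ hPt, divOf_apply]
      have hwt' : w ∈ t.erase P := Finset.mem_erase.mpr ⟨hwP, hwt⟩
      have h5 : divOf (K := K) ((h : holo P) : F) w ≤
          ∑ x ∈ t.erase P, divOf (K := K) ((h : holo P) : F) x := by
        refine Finset.single_le_sum (f := fun x => divOf (K := K) ((h : holo P) : F) x)
          (fun x hx => ?_) hwt'
        have := hnn x (Finset.mem_of_mem_erase hx) (Finset.ne_of_mem_erase hx)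
        have h6 := hD0 x
        rw [Finsupp.zero_apply] at h6
        exact h6.trans this
      have h7 := hnn w hwt hwP
      linarith
    · have h4 : P.ord ((h : holo P) : F) = 0 := by
        by_contra h4
        exact hPt (htmem P rfl (by rw [divOf_apply]; exact h4))
      rw [h4, zero_add]
      have h5 : divOf (K := K) ((h : holo P) : F) w ≤
          ∑ x ∈ t, divOf (K := K) ((h : holo P) : F) x := by
        refine Finset.single_le_sum (f := fun x => divOf (K := K) ((h : holo P) : F) x)
          (fun x hx => ?_) hwt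
        have := hnn x hx (fun h => hPt (h ▸ hx))
        have h6 := hD0 x
        rw [Finsupp.zero_apply] at h6
        exact h6.trans this
      exact (hnn w hwt hwP).trans h5
  omega

/-- **Reduction of a regular ideal.** -/
theorem Jf_mapDomain {I : Ideal (holo P)} (hI0 : I ≠ ⊥) {d : ℕ}
    (hI : (ConstModel.model C hr hπ hg).selfRel.IsReg
      (I.comap (ConstModel.model C hr hπ hg).ε) d)
    (hId : Module.finrank K (holo P ⧸ I) = d)
    {D : Divisor K F} (hD0 : 0 ≤ D) (hDP : D P = 0)
    (hD : Jf P D = (I : FractionalIdeal (holo P)⁰ F)) :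
    Jf (r P) (Finsupp.mapDomain r D) =
      (((ConstModel.model C hr hπ hg).redIdeal I : Ideal (holo (r P))) :
        FractionalIdeal (holo (r P))⁰ F') := by
  classical
  have hle := redIdeal_le C hr hπ hg hD
  have hr0 : 0 ≤ Finsupp.mapDomain r D := by
    intro v
    obtain ⟨t, ht, hsum, -⟩ := ConstModel.mapDomain_apply_eq r D v
    rw [hsum, Finsupp.zero_apply]
    exact Finset.sum_nonneg fun w _ => hD0 w
  have hrP : Finsupp.mapDomain r D (r P) = 0 := by
    obtain ⟨t, ht, hsum, -⟩ := ConstModel.mapDomain_apply_eq r D (r P)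
    rw [hsum]
    exact Finset.sum_eq_zero fun w hw => divisor_eq_zero C hr hπ hg hI hD0 hDP hD (ht w hw)
  have hle1 : Jf (r P) (Finsupp.mapDomain r D) ≤ 1 := by
    rw [← Jf_zero]
    intro x hx v hv
    rcases hx v hv with h | h
    · exact Or.inl h
    · exact Or.inr (le_trans (hr0 v) h)
  obtain ⟨J, hJ⟩ := FractionalIdeal.le_one_iff_exists_coeIdeal.mp hle1
  rw [← hJ] at hle ⊢
  have hle' : (ConstModel.model C hr hπ hg).redIdeal I ≤ J :=
    (FractionalIdeal.coeIdeal_le_coeIdeal F').mp hle
  have hred0 : (ConstModel.model C hr hπ hg).redIdeal I ≠ ⊥ := hI.bar_ne_bot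
  have hJ0 : J ≠ ⊥ := fun h => hred0 (le_bot_iff.mp (h ▸ hle'))
  obtain ⟨D', hD'0, hD'P, hD'deg, hD'J⟩ := exists_divisor (r P) hJ0
  have hDD : D' = Finsupp.mapDomain r D := by
    rw [hJ, Jf_eq_iff] at hD'J
    ext v
    by_cases hv : v = r P
    · rw [hv, hD'P, hrP]
    · exact hD'J v hv
  have hdeg : Divisor.degree (Finsupp.mapDomain r D : Divisor k F') = Divisor.degree D :=
    JRED.degree_mapDomain r D
  obtain ⟨D₁, hD₁0, hD₁P, hD₁deg, hD₁I⟩ := exists_divisor P hI0
  have hDD₁ : D₁ = D := by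
    rw [← hD, Jf_eq_iff] at hD₁I
    ext v
    by_cases hv : v = P
    · rw [hv, hD₁P, hDP]
    · exact hD₁I v hv
  have hcod := hI.bar_codim.2
  rw [CurveModel.selfRel_bar_comap] at hcod
  have hJd : Module.finrank k (holo (r P) ⧸ J) = d := by
    have h1 : (Module.finrank k (holo (r P) ⧸ J) : ℤ) = d := by
      rw [← hD'deg, hDD, hdeg, ← hDD₁, hD₁deg, hId]
    exact_mod_cast h1
  have heq : (ConstModel.model C hr hπ hg).redIdeal I = J := by
    refine (degRing' (K := K) (F := F) hg (r P)).eq_of_le_of_finrank_le hle' hred0 ?_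
    rw [hcod, hJd]
  rw [heq]

/-- **Reduction of classes.** -/
theorem redIdeal_equiv {I₁ I₂ : Ideal (holo P)} (h1 : I₁ ≠ ⊥) (h2 : I₂ ≠ ⊥) {d : ℕ}
    (hI₁ : (ConstModel.model C hr hπ hg).selfRel.IsReg
      (I₁.comap (ConstModel.model C hr hπ hg).ε) d)
    (hI₂ : (ConstModel.model C hr hπ hg).selfRel.IsReg
      (I₂.comap (ConstModel.model C hr hπ hg).ε) d)
    (hId₁ : Module.finrank K (holo P ⧸ I₁) = d) (hId₂ : Module.finrank K (holo P ⧸ I₂) = d)
    (x : Pic0 K F) (hx : (pic0Equiv P x).toMul * cls I₂ = cls I₁)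
    (hx0 : ESAbstract.redHom C r hr x = 0) :
    IdealEquiv ((ConstModel.model C hr hπ hg).redIdeal I₁)
      ((ConstModel.model C hr hπ hg).redIdeal I₂) := by
  classical
  obtain ⟨D₁, hD₁0, hD₁P, hD₁deg, hD₁I⟩ := exists_divisor P h1
  obtain ⟨D₂, hD₂0, hD₂P, hD₂deg, hD₂I⟩ := exists_divisor P h2
  have hdeg : D₁ - D₂ ∈ Divisor.degZero (K := K) (F := F) := by
    rw [Divisor.mem_degZero, map_sub, hD₁deg, hD₂deg, hId₁, hId₂, sub_self]
  have hxmk : x = Pic0.mk ⟨D₁ - D₂, hdeg⟩ := by
    apply (pic0Equiv P).injective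
    rw [pic0Equiv_mk]
    show pic0Equiv P x = classHom P (D₁ - D₂)
    rw [map_sub, classHom_eq_cls h1 hD₁I, classHom_eq_cls h2 hD₂I, ← hx]
    apply Additive.toMul.injective
    rw [toMul_sub, toMul_ofMul, toMul_ofMul, mul_div_cancel_right]
  rw [hxmk, ESAbstract.redHom_mk_eq_zero_iff, Divisor.mem_principal] at hx0
  obtain ⟨f, hf, hfD⟩ := hx0
  have hsub : Finsupp.mapDomain r (D₁ - D₂) = Finsupp.mapDomain r D₁ - Finsupp.mapDomain r D₂ :=
    map_sub (Finsupp.mapDomain.addMonoidHom r) D₁ D₂
  have hsum : Finsupp.mapDomain r D₁ = Finsupp.mapDomain r D₂ + divOf (K := k) f := by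
    have h3 : (divOf (K := k) f : Divisor k F') = Finsupp.mapDomain r (D₁ - D₂) := by
      ext v
      rw [divOf_apply]
      exact (hfD v).symm
    rw [h3, hsub]
    abel
  have hJ := congrArg (Jf (r P)) hsum
  rw [Jf_add, Jf_divOf (r P) hf, Jf_mapDomain C hr hπ hg h1 hI₁ hId₁ hD₁0 hD₁P hD₁I,
    Jf_mapDomain C hr hπ hg h2 hI₂ hId₂ hD₂0 hD₂P hD₂I] at hJ
  obtain ⟨a, b, hb, rfl⟩ := IsFractionRing.div_surjective (A := holo (r P)) f
  have hb0 : b ≠ 0 := nonZeroDivisors.ne_zero hb
  have hb' : algebraMap (holo (r P)) F' b ≠ 0 := fun h =>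
    hb0 (IsFractionRing.injective (holo (r P)) F' (by rw [h, map_zero]))
  have ha0 : a ≠ 0 := by
    rintro rfl
    rw [map_zero, zero_div] at hf
    exact hf rfl
  refine ⟨b, a, hb0, ha0, ?_⟩
  apply FractionalIdeal.coeIdeal_injective (K := F')
  show (((Ideal.span {b} * _ : Ideal (holo (r P)))) : FractionalIdeal (holo (r P))⁰ F') =
    ((Ideal.span {a} * _ : Ideal (holo (r P))) : FractionalIdeal (holo (r P))⁰ F')
  rw [FractionalIdeal.coeIdeal_mul, FractionalIdeal.coeIdeal_mul, hJ,
    FractionalIdeal.coeIdeal_span_singleton, FractionalIdeal.coeIdeal_span_singleton,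
    mul_comm (FractionalIdeal.spanSingleton (holo (r P))⁰ (algebraMap (holo (r P)) F' b)),
    mul_assoc, FractionalIdeal.spanSingleton_mul_spanSingleton, div_mul_cancel₀ _ hb', mul_comm]

end Fermat.Agent.RT.UnitRoot
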