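import Mathlib
import Fermat.Agent.RT.UnitRoot.Order
import Fermat.Agent.RT.UnitRoot.Congr
import Fermat.Agent.RT.UnitRoot.ChoiceCls
import Fermat.Agent.RT.UnitRoot.RedDiv
import Fermat.Agent.Flat.ModularModel
import Fermat.Agent.Flat.Final
import Fermat.Agent.JRED.ESGalois
import Fermat.Agent.JRED.ESFinal

/-!
# The Hopf order of `J₀(N)[n]` at a place above `p ∤ N` and the reduction map
-/

set_option autoImplicit false
set_option linter.unusedSectionVars false
set_option linter.overlappingInstances false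
set_option linter.style.haveILetI false

open IsLocalRing AlgebraicCurve ModularCurve Fermat.Agent.RR Fermat.Agent.JRED Fermat.Agent.Flat
  Fermat.Agent.Flat.ConstModel
open scoped nonZeroDivisors

noncomputable section

namespace Fermat.Agent.RT.UnitRoot

/-- Representatives of classes by ideals. -/
theorem exists_representatives_of_cls {R J G : Type*} [CommRing R] [IsDedekindDomain R]
    [AddCommGroup J] [SMul G J] (φ : J ≃+ Additive (ClassGroup R)) (gal : G → (R ≃+* R))
    (h : ∀ σ x, φ (σ • x) = Additive.ofMul (ClassGroup.mulEquiv (gal σ) (φ x).toMul)) :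
    ∃ Z : J → Ideal R, (∀ x, Z x ≠ ⊥) ∧ (∀ x y, IdealEquiv (Z x * Z y) (Z (x + y))) ∧
      (∀ x y, IdealEquiv (Z x) (Z y) → x = y) ∧
      (∀ (σ : G) x, IdealEquiv ((Z x).map (gal σ)) (Z (σ • x))) ∧
      ∀ x, cls (Z x) = (φ x).toMul := by
  classical
  have hsurj : ∀ x : J, ∃ I : (Ideal R)⁰, ClassGroup.mk0 I = (φ x).toMul := fun x =>
    ClassGroup.mk0_surjective _
  choose Z hZ using hsurj
  have hne : ∀ x, (Z x : Ideal R) ≠ ⊥ := fun x => mem_nonZeroDivisors_iff_ne_zero.mp (Z x).2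
  have hcls : ∀ x, cls (Z x : Ideal R) = (φ x).toMul := fun x => by
    rw [cls_of_ne (hne x)]
    exact hZ x
  refine ⟨fun x => (Z x : Ideal R), hne, fun x y => ?_, fun x y h => ?_, fun σ x => ?_, hcls⟩
  · refine (cls_eq_iff (mul_ne_zero (hne x) (hne y)) (hne _)).mp ?_
    rw [cls_mul (hne x) (hne y), hcls, hcls, hcls, map_add]
    rfl
  · have h1 := (cls_eq_iff (hne x) (hne y)).mpr h
    rw [hcls, hcls] at h1
    exact φ.injective (Additive.toMul.injective h1)
  · have h0 := map_equiv_ne_bot (hne x) (gal σ)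
    refine (cls_eq_iff h0 (hne _)).mp ?_
    rw [hcls, h, toMul_ofMul, ← hZ x, mulEquiv_mk0, cls_of_ne h0]

/-- Representatives of the points of `J₀(N)` by ideals, with their classes. -/
theorem exists_representatives_cls (N : ℕ) [NeZero N] :
    haveI : IsDedekindDomain (holo (cuspPlace N)) := isDedekindDomain_holo _
    ∃ Z : JZero N → Ideal (holo (cuspPlace N)), (∀ x, Z x ≠ ⊥) ∧
      (∀ x y, IdealEquiv (Z x * Z y) (Z (x + y))) ∧
      (∀ x y, IdealEquiv (Z x) (Z y) → x = y) ∧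
      (∀ (σ : AlgebraicClosure ℚ ≃ₐ[ℚ] AlgebraicClosure ℚ) x,
        IdealEquiv ((Z x).map (galHolo (exists_order_eq_neg_one N) σ)) (Z (σ • x))) ∧
      ∀ x, cls (Z x) = (pic0Equiv (cuspPlace N) x).toMul :=
  haveI : IsDedekindDomain (holo (cuspPlace N)) := isDedekindDomain_holo _
  exists_representatives_of_cls (pic0Equiv (cuspPlace N))
    (galHolo (exists_order_eq_neg_one N))
    (pic0Equiv_galois (exists_order_eq_neg_one N))

variable {N : ℕ} [NeZero N] {A : ValuationSubring (AlgebraicClosure ℚ)} {k : Type} [Field k]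
  {π : A →+* k} (M : ModularConstRed N π)
  {r : Place (AlgebraicClosure ℚ) (modularFunctionFieldBar N) →
      Place k (modularFunctionFieldFullC k N)}

/-- **The order of `J₀(N)[n]` at a place above `ℓ ∤ N`**: points with trivial reduction specialise
to the origin. -/
theorem exists_order_torsion [IsAlgClosed k]
    [RR.FunctionField k (modularFunctionFieldFullC k N)]
    (hπ : Function.Surjective π) (hdeg : DegreeInput N k) {ℓ : ℕ} [hℓ : Fact ℓ.Prime]
    (hA : A.LiesOverPrime ℓ) (hr : M.C.IsPlaceMap r) (hg : GoodReduction N k) (n : ℤ)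
    [Finite (Submodule.torsionBy ℤ (JZero N) n)] :
    ∃ H : Subalgebra (ZL ℓ) (Submodule.torsionBy ℤ (JZero N) n → Qbar),
      Module.Finite (ZL ℓ) H ∧
      (∀ h ∈ H, ∀ (σ : GQ) t, h (actTor N n σ t) = σ (h t)) ∧
      (∀ s t, (∀ h ∈ H, h s = h t) → s = t) ∧
      (∀ h ∈ H, ∃ (m : ℕ) (a b : Fin m → Submodule.torsionBy ℤ (JZero N) n → Qbar),
        (∀ i, a i ∈ H) ∧ (∀ i, b i ∈ H) ∧ ∀ s t, h (s + t) = ∑ i, a i s * b i t) ∧
      (∀ h ∈ H, ∀ t, h t ∈ A) ∧
      ∀ h ∈ H, ∀ t : Submodule.torsionBy ℤ (JZero N) n,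
        ESGalois.redMap M hr (t : JZero N) = 0 → h t - h 0 ∈ A.nonunits := by
  haveI : IsDedekindDomain (holo (cuspPlace N)) := isDedekindDomain_holo _
  obtain ⟨Z, hZ0, hZadd, hZinj, hZact, hZcls⟩ := exists_representatives_cls N
  let Mod := ModularModel.model M hπ hr hg
  let Act := ModularModel.act M hπ hdeg hℓ.out hA hr hg
  obtain ⟨I, hI1, hI2, hI3, hI4, hI5, hI6, hI7⟩ := Mod.exists_ideals_cls Act
    (T := Submodule.torsionBy ℤ (JZero N) n) (fun γ x => actTor N n (γ : GQ) x)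
    (fun x => Z (x : JZero N)) (fun x => hZ0 _) (fun x y => hZadd _ _)
    (fun x y h => Subtype.ext (hZinj _ _ h)) (fun γ x => hZact _ _)
  have : Infinite k := IsAlgClosed.instInfinite
  obtain ⟨Φ, hΦ1, hΦ2, hΦ3, hΦ4, hΦ5, hΦ6⟩ := CurveModel.exists_generators_of_ideals_congr Act
    (fun γ x => actTor N n (γ : GQ) x) I (fun x => (hI1 x).1) hI2 hI3 hI4 hI5
  obtain ⟨H, hH1, hH2, hH3, hH4, hH5, hH6⟩ := exists_order_of_local_generators ℓ A hA
    (actTor N n) (fun t => Subtype.ext (one_smul _ _))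
    (fun σ τ t => Subtype.ext (mul_smul _ _ _)) (fun σ s t => Subtype.ext (smul_add _ _ _))
    (fun t => by
      obtain ⟨L, hL, hL'⟩ := GAL.Smooth.smooth_JZero N (t : JZero N)
      exact ⟨L, hL, fun σ hσ => Subtype.ext (hL' σ hσ)⟩)
    Φ hΦ1 (fun φ hφ t => by
      obtain ⟨a, ha⟩ := hΦ2 φ hφ t
      rw [← ha]
      exact a.2)
    (fun φ hφ σ hσ t => hΦ3 φ hφ ⟨σ, hσ⟩ t) hΦ4 hΦ5
  refine ⟨H, hH1, hH2, hH3, hH4, hH5, fun h hh t ht => ?_⟩
  refine hH6 {t | ESGalois.redMap M hr (t : JZero N) = 0} ?_ ?_ h hh t ht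
  · intro δ hδ s hs
    obtain ⟨τ, hτ⟩ := ESGalois.exists_isResidual hπ hδ
    exact ESGalois.redMap_eq_zero_of_smul M hr hτ (s : JZero N) hs
  · intro φ hφ s hs
    have hcodim : ∀ x, Module.finrank (AlgebraicClosure ℚ) (holo (cuspPlace N) ⧸ I x) =
        genusFF (AlgebraicClosure ℚ) (modularFunctionFieldBar N) := by
      intro x
      have h1 := ((hI1 x).1.codim ()).2
      rw [CurveModel.selfRel_at, CurveModel.map_comap] at h1
      exact h1
    have hequiv : IdealEquiv (Mod.redIdeal (I s)) (Mod.redIdeal (I 0)) := by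
      refine redIdeal_equiv M.C hr hπ hg (hI6 s) (hI6 0) (hI1 s).1 (hI1 0).1 (hcodim s)
        (hcodim 0) (s : JZero N) ?_ hs
      have h1 := hI7 s 0
      rw [hZcls, hZcls] at h1
      have h2 : (pic0Equiv (cuspPlace N) ((0 : Submodule.torsionBy ℤ (JZero N) n) :
          JZero N)).toMul = 1 := by
        rw [Submodule.coe_zero, map_zero]
        rfl
      rw [h2, mul_one] at h1
      rw [h1, mul_comm]
    obtain ⟨a, ha, hφa⟩ := hΦ6 s 0 hequiv φ hφ
    rw [← hφa]
    exact ValuationSubring.coe_mem_nonunits_iff.mpr ha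

end Fermat.Agent.RT.UnitRoot
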