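import Mathlib
import Fermat.Agent.RT.UnitRoot.JOrder
import Fermat.Agent.RT.UnitRoot.Inertia
import Fermat.Agent.JRED.Main
import Fermat.Agent.JRED.AtkinLehnerInput

/-!
# The unit root relation

`p` odd, `p ∤ N`, `A` a place of `ℚ̄` above `p` with inertia group `I`, `φ` a Frobenius element.
For every finite `I`-stable subgroup `W` of the `p`-primary torsion of `J₀(N)`, the kernel of the
reduction map on `W` is contained in `(I - 1) W`.  Hence
`φ² - T_p φ + p` maps `W` into `(I - 1) W` whenever it maps `W` into `W`.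
-/

set_option autoImplicit false
set_option linter.unusedSectionVars false
set_option linter.overlappingInstances false
set_option linter.style.haveILetI false

open IsLocalRing AlgebraicCurve ModularCurve Fermat.Agent.RR Fermat.Agent.JRED Fermat.Agent.Flat
  Fermat.Agent.Flat.ConstModel
open scoped nonZeroDivisors

noncomputable section

namespace Fermat.Agent.RT.UnitRoot

section Red

open Fermat.Agent.JRED.ESSemi Fermat.Agent.JRED.ESGalois Fermat.Agent.JRED.ESFinal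
  Fermat.Agent.Jan.HeckeInputs Fermat.Agent.Jan.HeckeNorm

variable {N : ℕ} [NeZero N] {A : ValuationSubring (AlgebraicClosure ℚ)} {k : Type} [Field k]
  {π : A →+* k} (M : ModularConstRed N π)
  {r : Place (AlgebraicClosure ℚ) (modularFunctionFieldBar N) →
      Place k (modularFunctionFieldFullC k N)}

/-- **Eichler–Shimura relation** for the reduction map. -/
theorem redMap_frobenius [IsAlgClosed k] (hr : M.C.IsPlaceMap r)
    (hπ : Function.Surjective π) {ℓ : ℕ} [NeZero ℓ] (hℓ : ℓ.Prime)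
    (hA : A.LiesOverPrime ℓ) (hD : DegreeInput N k)
    (hAL : AtkinLehnerInput N ℓ) {σ : AlgebraicClosure ℚ ≃ₐ[ℚ] AlgebraicClosure ℚ}
    (hσ : A.IsFrobeniusAt σ ℓ) (x : JZero N) :
    redMap M hr (σ • σ • x - heckeOperatorBar N ⟨ℓ, hℓ⟩ (σ • x) + ℓ • x) = 0 := by
  have i1 : CharP k ℓ := charP_of_liesOver hπ hℓ hA
  have i3 : Fact ℓ.Prime := ⟨hℓ⟩
  have i4 : ExpChar k ℓ := ExpChar.prime hℓ
  have i5 := hD.functionField
  have i6 := hD.functionField'
  have i7 : PerfectRing k ℓ := inferInstance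
  have hτ : IsResidual π σ (frobeniusEquiv k ℓ) :=
    isResidual_of_frobenius hπ hσ _ fun x => by rw [frobeniusEquiv_apply, frobenius_def]
  haveI i8 := hasPrincipalDivisors_modular (AlgebraicClosure ℚ)
    Fermat.Agent.Jan.DegreeWiring.jAlg (N * ℓ)
  have hα := heckeAlphaBarIntegral (AlgebraicClosure ℚ) N ℓ Fermat.Agent.Jan.DegreeWiring.jAlg
  have hβ := heckeBetaBarIntegral (AlgebraicClosure ℚ) N ℓ Fermat.Agent.Jan.DegreeWiring.jAlg
  have hfin := finiteAlong_heckeAlphaBar (AlgebraicClosure ℚ) N ℓ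
    Fermat.Agent.Jan.DegreeWiring.jAlg
  haveI i9 := isFF1_modular (AlgebraicClosure ℚ) Fermat.Agent.Jan.DegreeWiring.jAlg N
  have hN := Fermat.Agent.Jan.RelFundamental.normFormulaAlong
    (heckeAlphaBar (AlgebraicClosure ℚ) N ℓ) hfin
  refine redMap_quadratic M hr hτ ℓ (heckeDivBar hα hβ) ?_ _ ?_ x
  · intro D hD0
    refine ESAbstract.hecke_agree M.C hr (heckeDivBar hα hβ)
      (fun P => correspondence_single_nonneg _ _ _ _ P) _ ℓ ?_ hD0
    intro f hf
    obtain ⟨h, hh, hres⟩ := res_norm_eq ℓ hℓ M hAL f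
    have h1 : coeffSemi N (frobeniusEquiv k ℓ) • M.C.res f ≠ 0 :=
      (smul_ne_zero_iff_ne _).mpr hf
    have h2 : (coeffSemi N (frobeniusEquiv k ℓ))⁻¹ • M.C.res f ≠ 0 :=
      (smul_ne_zero_iff_ne _).mpr hf
    refine ⟨h, ?_, ?_, ?_⟩
    · rw [hres]
      exact mul_ne_zero h1 (pow_ne_zero _ h2)
    · intro D hD P
      rw [hh]
      have hf0 : (f : modularFunctionFieldBar N) ≠ 0 := by
        intro h0
        apply hf
        rw [show f = 0 from Subtype.ext h0, map_zero]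
      exact correspondence_eq_ord _ _ hβ hα hfin hN hf0 hD P
    · intro Q
      rw [hres, Q.ord_mul h1 (pow_ne_zero _ h2), RR.ord_pow]
  · intro D
    exact heckeOperatorBar_mk Fermat.Agent.Jan.DegreeWiring.jAlg N ⟨ℓ, hℓ⟩ D

/-- The kernel of reduction on a finite inertia-stable subgroup has no inertia coinvariants. -/
theorem mem_closure_of_redMap [IsAlgClosed k] (hr : M.C.IsPlaceMap r)
    (hπ : Function.Surjective π) {p : ℕ} (hp : p.Prime) (hp2 : p ≠ 2)
    (hA : A.LiesOverPrime p) (hD : DegreeInput N k) (hg : GoodReduction N k) (n : ℕ)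
    (hfin : Finite (Submodule.torsionBy ℤ (JZero N) ((p : ℤ) ^ n)))
    (W : AddSubgroup (JZero N)) (hW : ∀ x ∈ W, p ^ n • x = 0)
    (hWI : ∀ σ ∈ A.inertiaSubgroupIn ℚ, ∀ x ∈ W, σ • x ∈ W) {x : JZero N} (hx : x ∈ W)
    (hx0 : redMap M hr x = 0) :
    x ∈ AddSubgroup.closure {y : JZero N | ∃ σ ∈ A.inertiaSubgroupIn ℚ, ∃ z ∈ W,
      redMap M hr z = 0 ∧ y = σ • z - z} := by
  have hFact : Fact p.Prime := ⟨hp⟩
  have i6 := hD.functionField'
  set T := Submodule.torsionBy ℤ (JZero N) ((p : ℤ) ^ n) with hT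
  obtain ⟨H, hH1, hH2, hH3, hH4, hH5, hH6⟩ :=
    exists_order_torsion M hπ hD hA hr hg ((p : ℤ) ^ n)
  have hmemT : ∀ y ∈ W, y ∈ T := fun y hy => by
    rw [hT, Submodule.mem_torsionBy_iff, ← Nat.cast_pow, natCast_zsmul]
    exact hW y hy
  let W0 : AddSubgroup T :=
    { carrier := {t | (t : JZero N) ∈ W ∧ redMap M hr (t : JZero N) = 0}
      zero_mem' := ⟨W.zero_mem, map_zero _⟩
      add_mem' := fun {a b} ha hb => ⟨W.add_mem ha.1 hb.1, by
        show redMap M hr ((a : JZero N) + b) = 0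
        rw [map_add, ha.2, hb.2, add_zero]⟩
      neg_mem' := fun {a} ha => ⟨W.neg_mem ha.1, by
        show redMap M hr (-(a : JZero N)) = 0
        rw [map_neg, ha.2, neg_zero]⟩ }
  let S : Set (JZero N) := {y : JZero N | ∃ σ ∈ A.inertiaSubgroupIn ℚ, ∃ z ∈ W,
      redMap M hr z = 0 ∧ y = σ • z - z}
  let W1 : AddSubgroup T := (AddSubgroup.closure S).comap T.subtype.toAddMonoidHom
  have hstep : ∀ σ ∈ A.inertiaSubgroupIn ℚ, ∀ t ∈ W0, actTor N ((p : ℤ) ^ n) σ t ∈ W0 := by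
    rintro σ hσ t ⟨ht1, ht2⟩
    refine ⟨hWI σ hσ _ ht1, ?_⟩
    show redMap M hr (σ • (t : JZero N)) = 0
    rw [redMap_inertia M hr hπ hσ, ht2]
  have hle := le_of_inertia_trivial (p := p) (actTor N ((p : ℤ) ^ n))
    (fun t => Subtype.ext (one_smul _ _)) (fun σ τ t => Subtype.ext (mul_smul _ _ _))
    (fun σ s t => Subtype.ext (smul_add _ _ _)) H hH1 hH2 hH3 hH4 hp hp2 A hA W0 W1
    (fun h hh t ht => hH6 h hh t ht.2) hstep
    (fun σ hσ t ht => by
      show ((actTor N ((p : ℤ) ^ n) σ t - t : T) : JZero N) ∈ AddSubgroup.closure S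
      exact AddSubgroup.subset_closure ⟨σ, hσ, t, ht.1, ht.2, rfl⟩)
    (fun t ht => ⟨n, Subtype.ext (hW _ ht.1)⟩)
  exact hle (show (⟨x, hmemT x hx⟩ : T) ∈ W0 from ⟨hx, hx0⟩)

end Red

/-- The torsion of `J₀(N)` is finite. -/
def TorsionFinite (N : ℕ) [NeZero N] : Prop :=
  ∀ n : ℕ, 0 < n → {x : JZero N | n • x = 0}.Finite

/-- **The unit root relation.** -/
theorem frobenius_relation {N : ℕ} [NeZero N] (hfin : TorsionFinite N)
    {p : ℕ} (hp : p.Prime) (hp2 : p ≠ 2) (hpN : ¬ p ∣ N)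
    {A : ValuationSubring (AlgebraicClosure ℚ)} (hA : A.LiesOverPrime p)
    {φ : AlgebraicClosure ℚ ≃ₐ[ℚ] AlgebraicClosure ℚ} (hφ : A.IsFrobeniusAt φ p)
    (n : ℕ) (W : AddSubgroup (JZero N)) (hW : ∀ x ∈ W, p ^ n • x = 0)
    (hWI : ∀ σ ∈ A.inertiaSubgroupIn ℚ, ∀ x ∈ W, σ • x ∈ W) (x : JZero N)
    (hx : φ • φ • x - heckeOperatorBar N ⟨p, hp⟩ (φ • x) + p • x ∈ W) :
    φ • φ • x - heckeOperatorBar N ⟨p, hp⟩ (φ • x) + p • x ∈
      AddSubgroup.closure {y : JZero N | ∃ σ ∈ A.inertiaSubgroupIn ℚ, ∃ z ∈ W, y = σ • z - z} := by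
  have hπ : Function.Surjective (IsLocalRing.residue A) := IsLocalRing.residue_surjective
  have i1 : CharP (IsLocalRing.ResidueField A) p := ESFinal.charP_of_liesOver hπ hp hA
  have i2 : IsAlgClosed (IsLocalRing.ResidueField A) := isAlgClosed_of_surjective hπ
  have : NeZero p := ⟨hp.ne_zero⟩
  have hD : DegreeInput N (IsLocalRing.ResidueField A) := degreeInput' (NeZero.ne N) hpN
  have hG : GoodReduction N (IsLocalRing.ResidueField A) :=
    JRED.goodReduction hπ hp (NeZero.ne N) hpN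
  have hAL := AL.atkinLehnerInput N p hp hpN
  have i5 := hD.functionField
  have i6 := hD.functionField'
  let M : ModularConstRed N (IsLocalRing.residue A) := hD.modularConstRed hπ
  obtain ⟨r, hr⟩ := M.exists_isPlaceMap hπ hD hG
  have hfinT : Finite (Submodule.torsionBy ℤ (JZero N) ((p : ℤ) ^ n)) := by
    refine ((hfin (p ^ n) (pow_pos hp.pos n)).subset ?_).to_subtype
    intro x hx
    have h1 : ((p : ℤ) ^ n) • x = 0 := (Submodule.mem_torsionBy_iff _ _).mp hx
    show (p ^ n) • x = 0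
    rw [← natCast_zsmul, Nat.cast_pow]
    exact h1
  refine AddSubgroup.closure_mono ?_ (mem_closure_of_redMap M hr hπ hp hp2 hA hD hG n hfinT W hW
    hWI hx (redMap_frobenius M hr hπ hp hA hD hAL hφ x))
  rintro y ⟨σ, hσ, z, hz, -, rfl⟩
  exact ⟨σ, hσ, z, hz, rfl⟩

end Fermat.Agent.RT.UnitRoot
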