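import Fermat.Agent.RT.UnitRoot.Family
import Fermat.Agent.RT.PointRep

/-!
# The unit root relation for a newform of level prime to `p`, `p` in the excluded set

`ρ : GaloisRepAdic 𝒪` attached to `t : ℕ → 𝒪` away from `S` (`p ∈ S` allowed), `j : 𝒪 → ℂ`, `g` a
normalised eigenform of level `C` prime to `p` with `a_ℓ(g) = j(t_ℓ)`, `ℓ ∉ S`.  If `ρ` is ordinary
at `p` then `z(φ)² - a z(φ) + p = 0` with `j(a) = a_p(g)`.
-/

set_option autoImplicit false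

noncomputable section

open Polynomial IsLocalRing CongruenceSubgroup ModularFormClass

namespace Fermat.Agent.RT.UnitRoot

open Fermat.Agent.CMP Fermat.Agent.RT.Point Fermat.Agent.DefCond

local notation "Qbar" => AlgebraicClosure ℚ
local notation "GQ" => (AlgebraicClosure ℚ ≃ₐ[ℚ] AlgebraicClosure ℚ)

section BC

variable {A B : Type} [CommRing A] [IsLocalRing A] [CommRing B] [IsLocalRing B]
  (φ : A →+* B) (hφ : IsLocalHom φ)

theorem isAbsolutelyIrreducible_bc {ρ : GaloisRepAdic A}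
    (h : ρ.residual.IsAbsolutelyIrreducible) :
    (ρ.baseChangeAlong φ hφ).residual.IsAbsolutelyIrreducible := by
  refine BN2.isAbsolutelyIrreducible_of_charpoly_eq (RingHom.id _) (ResidueField.map φ) _
    ρ.residual (fun σ => ?_) h
  have hr : ∀ {C : Type} [CommRing C] [IsLocalRing C] (ρ : GaloisRepAdic C)
      (σ : AlgebraicClosure ℚ ≃ₐ[ℚ] AlgebraicClosure ℚ), LinearMap.charpoly (ρ.residual.ρ σ) =
        (LinearMap.charpoly (ρ.ρ σ)).map (residue C) := fun ρ σ =>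
    LinearMap.charpoly_baseChange (ρ.ρ σ) _
  rw [hr, hr, charpoly_baseChangeAlong, Polynomial.map_map, Polynomial.map_map, Polynomial.map_map]
  rfl

end BC

theorem isUnit_z {A : Type} [CommRing A] [IsLocalRing A] {ρ : GaloisRepAdic A}
    {P : ValuationSubring Qbar} (d : PStep.OrdData ρ P) {φ : GQ}
    (hφ : φ ∈ P.decompositionSubgroup ℚ) : IsUnit (d.z φ) := by
  have h1 := d.det hφ
  have h2 : IsUnit (LinearMap.det (ρ.ρ φ)) := by
    have h3 : ρ.ρ φ * ρ.ρ φ⁻¹ = 1 := by rw [← map_mul, mul_inv_cancel, map_one]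
    have h4 := congrArg LinearMap.det h3
    rw [map_mul, map_one] at h4
    exact IsUnit.of_mul_eq_one _ h4
  rw [h1] at h2
  exact isUnit_of_mul_isUnit_right h2

variable {𝒪 : Type} [CommRing 𝒪] [IsDomain 𝒪] [IsDiscreteValuationRing 𝒪]
  [IsAdicComplete (maximalIdeal 𝒪) 𝒪] [Finite (ResidueField 𝒪)] [CharZero 𝒪]

/-- **Unit root relation, newform version.** -/
theorem exists_unitRoot {p : ℕ} (hp : p.Prime) (hp2 : p ≠ 2) (hp𝒪 : (p : 𝒪) ∈ maximalIdeal 𝒪)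
    (j : 𝒪 →+* ℂ) (hj : Function.Injective j) {S : Finset ℕ} {t : ℕ → 𝒪} {ρ : GaloisRepAdic 𝒪}
    (hρ : Attached S t ρ) (hirr : ρ.residual.IsAbsolutelyIrreducible)
    {C : ℕ} [NeZero C] {g : CuspForm (Gamma0 C) 2} (hg : g.IsNormalizedEigenform)
    (hpC : ¬ p ∣ C) (ha : ∀ ℓ : ℕ, ℓ.Prime → ℓ ∉ S → qCoeff ⇑g ℓ = j (t ℓ))
    {A : ValuationSubring Qbar} (hA : A.LiesOverPrime p) {φ : GQ} (hφ : A.IsFrobeniusAt φ p)
    (hφD : φ ∈ A.decompositionSubgroup ℚ) (d : PStep.OrdData ρ A) :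
    ∃ a : 𝒪, j a = qCoeff ⇑g p ∧ d.z φ ^ 2 - a * d.z φ + p = 0 := by
  classical
  let _ : Algebra 𝒪 ℂ := j.toAlgebra
  have halg : ∀ x : 𝒪, algebraMap 𝒪 ℂ x = j x := fun _ => rfl
  let B := Algebra.adjoin 𝒪 {qCoeff ⇑g p}
  have hgen : qCoeff ⇑g p ∈ B := Algebra.self_mem_adjoin_singleton 𝒪 _
  have hint : IsIntegral 𝒪 (qCoeff ⇑g p) :=
    (Fermat.Agent.EigenCharacter.isIntegral_qCoeff hg hp).tower_top (A := 𝒪)
  have hfin : Module.Finite 𝒪 B := Module.Finite.of_fg hint.fg_adjoin_singleton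
  have hinjB : Function.Injective (algebraMap 𝒪 B) := by
    intro x y hxy
    apply hj
    exact congrArg (Subtype.val : B → ℂ) hxy
  obtain ⟨𝒪', i1, i2, i3, i4, i5, i6, i7, i8, i9, i10, hinj, ψ, hψ⟩ :=
    Components.exists_dvr_of_isDomain 𝒪 B hinjB
  -- the finite set
  set S' : Finset ℕ := (S ∪ C.primeFactors).erase p with hS'
  have hpS' : p ∉ (↑S' : Set ℕ) := by simp [hS']
  have hCS' : ∀ q : ℕ, q.Prime → q ∣ C → q ∈ S' := by
    intro q hq hqC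
    rw [hS', Finset.mem_erase, Finset.mem_union, Nat.mem_primeFactors]
    exact ⟨fun h => hpC (h ▸ hqC), Or.inr ⟨hq, hqC, NeZero.ne C⟩⟩
  have hS'S : ∀ ℓ : ℕ, ℓ ≠ p → ℓ ∉ S' → ℓ ∉ S := by
    intro ℓ hℓp hℓ h
    exact hℓ (by rw [hS', Finset.mem_erase, Finset.mem_union]; exact ⟨hℓp, Or.inl h⟩)
  -- the character
  have hrange : (EigenCharOn.eigenCharOn (↑S' : Set ℕ) hg).range ≤ B.toSubring := by
    refine EigenCharOn.range_eigenCharOn_le _ hg B.toSubring fun ℓ hℓ hℓS => ?_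
    by_cases hℓp : ℓ = p
    · subst hℓp; exact hgen
    · rw [ha ℓ hℓ (hS'S ℓ hℓp fun h => hℓS (Finset.mem_coe.mpr h))]
      exact B.algebraMap_mem (t ℓ)
  let χ : CuspForm.heckeAlgebra C 2 (↑S' : Set ℕ) →+* B :=
    (Subring.inclusion hrange).comp (EigenCharOn.eigenCharOn (↑S' : Set ℕ) hg).rangeRestrict
  have hχ : ∀ x, ((χ x : B) : ℂ) = EigenCharOn.eigenCharOn (↑S' : Set ℕ) hg x := fun x => rfl
  let π : CuspForm.heckeAlgebra C 2 (↑S' : Set ℕ) →+* 𝒪' := (ψ : B →+* 𝒪').comp χ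
  have hloc : IsLocalHom (algebraMap 𝒪 𝒪') := i10
  have hcharpoly : ∀ (ℓ : ℕ) (hℓ : ℓ.Prime) (hℓN : ¬ ℓ ∣ C) (hℓS : ℓ ∉ (↑S' : Set ℕ)), ℓ ≠ p →
      ∀ A : ValuationSubring (AlgebraicClosure ℚ), A.LiesOverPrime ℓ →
        ∀ σ : AlgebraicClosure ℚ ≃ₐ[ℚ] AlgebraicClosure ℚ, A.IsFrobeniusAt σ ℓ →
          LinearMap.charpoly ((ρ.baseChangeAlong (algebraMap 𝒪 𝒪') hloc).ρ σ) = X ^ 2 -
            Polynomial.C (π (CuspForm.heckeAlgebra.T hℓ hℓN hℓS)) * X +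
            Polynomial.C ((ℓ : 𝒪')) := by
    intro ℓ hℓ hℓN hℓS hℓp A hA σ hσ
    have hℓS1 : ℓ ∉ S := hS'S ℓ hℓp fun h => hℓS (Finset.mem_coe.mpr h)
    rw [charpoly_baseChangeAlong, hρ ℓ hℓ hℓS1 A hA σ hσ]
    have h1 : χ (CuspForm.heckeAlgebra.T hℓ hℓN hℓS) = algebraMap 𝒪 B (t ℓ) := by
      apply Subtype.ext
      rw [hχ, EigenCharOn.eigenCharOn_T, ha ℓ hℓ hℓS1]
      rfl
    have h2 : π (CuspForm.heckeAlgebra.T hℓ hℓN hℓS) = algebraMap 𝒪 𝒪' (t ℓ) := by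
      show ψ (χ _) = _
      rw [h1, ψ.commutes]
    rw [h2]
    simp only [Polynomial.map_add, Polynomial.map_sub, Polynomial.map_mul, Polynomial.map_pow,
      Polynomial.map_X, Polynomial.map_C, map_natCast, Polynomial.map_natCast]
  have hp𝒪' : (p : 𝒪') ∈ maximalIdeal 𝒪' := by
    rw [← map_natCast (algebraMap 𝒪 𝒪') p]
    exact map_nonunit (algebraMap 𝒪 𝒪') _ hp𝒪
  have hloc' : IsLocalHom (algebraMap 𝒪' 𝒪') := by
    rw [Algebra.algebraMap_self]; infer_instance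
  have key := frobenius_relation_ordData (𝒪 := 𝒪') (T := 𝒪') inferInstance hp hp2 hpC hp𝒪' hpS'
    hCS' π (ρ.baseChangeAlong (algebraMap 𝒪 𝒪') hloc) hcharpoly
    (isAbsolutelyIrreducible_bc _ hloc hirr) hA hφ hφD (d.baseChange (algebraMap 𝒪 𝒪') hloc)
  have hz : (d.baseChange (algebraMap 𝒪 𝒪') hloc).z φ = algebraMap 𝒪 𝒪' (d.z φ) := rfl
  rw [hz] at key
  -- `z` is a unit
  have hzu : IsUnit (d.z φ) := isUnit_z d hφD
  obtain ⟨u, hu⟩ := hzu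
  set a : 𝒪 := d.z φ + p * ((u⁻¹ : 𝒪ˣ) : 𝒪) with ha'
  have huinv : ((u⁻¹ : 𝒪ˣ) : 𝒪) * d.z φ = 1 := by rw [← hu, Units.inv_mul]
  have hrel : d.z φ ^ 2 - a * d.z φ + p = 0 := by
    rw [ha', add_mul, mul_assoc, huinv]; ring
  refine ⟨a, ?_, hrel⟩
  have h1 : algebraMap 𝒪 𝒪' a = π (CuspForm.heckeAlgebra.T hp hpC hpS') := by
    have h2 := congrArg (algebraMap 𝒪 𝒪') hrel
    simp only [map_add, map_sub, map_mul, map_pow, map_natCast, map_zero] at h2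
    have h3 : (algebraMap 𝒪 𝒪' a - π (CuspForm.heckeAlgebra.T hp hpC hpS')) *
        algebraMap 𝒪 𝒪' (d.z φ) = 0 := by linear_combination key - h2
    have h4 : algebraMap 𝒪 𝒪' (d.z φ) ≠ 0 := by
      rw [← hu]
      exact (u.isUnit.map (algebraMap 𝒪 𝒪')).ne_zero
    exact sub_eq_zero.mp ((mul_eq_zero.mp h3).resolve_right h4)
  have h5 : ψ (algebraMap 𝒪 B a) = ψ (χ (CuspForm.heckeAlgebra.T hp hpC hpS')) := by
    rw [ψ.commutes, h1]; rfl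
  have h6 := congrArg (Subtype.val : B → ℂ) (hψ h5)
  rw [hχ, EigenCharOn.eigenCharOn_T] at h6
  exact h6

/-- **Unit root relation, newform version**, with the coefficients in `𝒪` given. -/
theorem unitRoot_of_coeff {p : ℕ} (hp : p.Prime) (hp2 : p ≠ 2)
    (hp𝒪 : (p : 𝒪) ∈ maximalIdeal 𝒪)
    (j : 𝒪 →+* ℂ) (hj : Function.Injective j) {S : Finset ℕ} {a : ℕ → 𝒪} {ρ : GaloisRepAdic 𝒪}
    (hρ : Attached S a ρ) (hirr : ρ.residual.IsAbsolutelyIrreducible)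
    {C : ℕ} [NeZero C] {g : CuspForm (Gamma0 C) 2} (hg : g.IsNormalizedEigenform)
    (hpC : ¬ p ∣ C) (hCS : ∀ q : ℕ, q.Prime → q ∣ C → q ∈ S)
    (ha : ∀ ℓ : ℕ, ℓ.Prime → ¬ ℓ ∣ C → j (a ℓ) = qCoeff ⇑g ℓ)
    {A : ValuationSubring Qbar} (hA : A.LiesOverPrime p) {φ : GQ} (hφ : A.IsFrobeniusAt φ p)
    (hφD : φ ∈ A.decompositionSubgroup ℚ) (d : PStep.OrdData ρ A) :
    d.z φ ^ 2 - a p * d.z φ + p = 0 := by
  obtain ⟨a', ha', h⟩ := exists_unitRoot hp hp2 hp𝒪 j hj hρ hirr hg hpC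
    (fun ℓ hℓ hℓS => (ha ℓ hℓ fun h => hℓS (hCS ℓ hℓ h)).symm) hA hφ hφD d
  have : a' = a p := hj (by rw [ha', ha p hp hpC])
  rwa [this] at h

end Fermat.Agent.RT.UnitRoot
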