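import Mathlib
import Fermat.Agent.FlatMatch.SubMatch

/-!
# Sub-matching with an anemic Hecke algebra containing `T_p`

Copy of `Fermat.FlatMatch.exists_family`, with `p ∉ S` allowed: the characteristic polynomial of
Frobenius is only prescribed at the primes `ℓ ∉ S ∪ {p}`.
-/

set_option autoImplicit false

namespace Fermat.Agent.RT.UnitRoot

open IsLocalRing Fermat.FlatModel ModularCurve Fermat.FlatMatch
open scoped TensorProduct

noncomputable section

variable {p : ℕ} {N : ℕ} [NeZero N] {S : Finset ℕ}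
  {𝒪 : Type} [CommRing 𝒪] [IsDomain 𝒪] [IsDiscreteValuationRing 𝒪]
  [IsAdicComplete (IsLocalRing.maximalIdeal 𝒪) 𝒪]
  {T : Type} [CommRing T] [IsLocalRing T] [IsNoetherianRing T]
  [IsAdicComplete (IsLocalRing.maximalIdeal T) T] [Algebra 𝒪 T] [IsLocalHom (algebraMap 𝒪 T)]
  [Module.Finite 𝒪 T]

/-- **Sub-matching** with a Galois–Hecke module `J` (in practice `J₀(N)`): for every `I` with
`T / I` finite there are `𝔞 ≤ I` and a family of `G_ℚ`- and Hecke-equivariant additive maps
`V → J[p^n]` with intersection of kernels `𝔞 V`. -/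
theorem exists_family_insert [Finite (ResidueField 𝒪)] [CharZero 𝒪] [Module.IsTorsionFree 𝒪 T]
    (hred : IsReduced T)
    (hp : p.Prime) (hp2 : p ≠ 2) (hp𝒪 : (p : 𝒪) ∈ maximalIdeal 𝒪)
    (hNS : ∀ q : ℕ, q.Prime → q ∣ N → q ∈ S)
    (π : CuspForm.heckeAlgebra N 2 (↑S : Set ℕ) →+* T) (ρ : GaloisRepAdic T)
    (hcharpoly : ∀ (ℓ : ℕ) (hℓ : ℓ.Prime) (hℓN : ¬ ℓ ∣ N) (hℓS : ℓ ∉ (↑S : Set ℕ)), ℓ ≠ p →
      ∀ A : ValuationSubring (AlgebraicClosure ℚ), A.LiesOverPrime ℓ →
        ∀ σ : AlgebraicClosure ℚ ≃ₐ[ℚ] AlgebraicClosure ℚ, A.IsFrobeniusAt σ ℓ →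
          LinearMap.charpoly (ρ.ρ σ) = Polynomial.X ^ 2 -
            Polynomial.C (π (CuspForm.heckeAlgebra.T hℓ hℓN hℓS)) * Polynomial.X +
            Polynomial.C ((ℓ : T)))
    (hirr : ρ.residual.IsAbsolutelyIrreducible)
    (J : Type) [AddCommGroup J] [Module HeckeAlg J] [DistribMulAction GQ J]
    [SMulCommClass GQ HeckeAlg J]
    (hsmooth : ∀ x : J, ∃ L : IntermediateField ℚ (AlgebraicClosure ℚ), FiniteDimensional ℚ L ∧
      ∀ g : GQ, (∀ y ∈ L, g y = y) → g • x = x)
    (hfrob : FrobeniusQuadratic (K := ℚ) (L := AlgebraicClosure ℚ) N p J)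
    (hfin : Finite {x : J // p • x = 0}) (hsupp : Support N p S J)
    (I : Ideal T) [Finite (T ⧸ I)] :
    ∃ (n : ℕ) (𝔞 : Ideal T), 𝔞 ≤ I ∧ Finite (T ⧸ 𝔞) ∧
      ∃ (K : Type) (f : K → (ρ.V →+ J)), (∀ k v, p ^ n • f k v = 0) ∧
        (∀ k (g : GQ) v, f k (ρ.ρ g v) = g • f k v) ∧
        (∀ k (a : AnemicAlg S) v, f k (π (anemicEval hNS a) • v) = anemicIncl S a • f k v) ∧
        ∀ v, (∀ k, f k v = 0) ↔ v ∈ 𝔞 • (⊤ : Submodule T ρ.V) := by
  -- the residue field of `T` is finite
  have hres : Finite (ResidueField T) := Fermat.Agent.RT.Components.finite_residueField (R := 𝒪)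
  -- `2` is a unit
  have hpT : (p : T) ∈ maximalIdeal T := by
    rw [← map_natCast (algebraMap 𝒪 T) p]
    exact map_nonunit (algebraMap 𝒪 T) _ hp𝒪
  have h2 : IsUnit (2 : T) := by
    by_contra h
    have h2' : (2 : T) ∈ maximalIdeal T := h
    obtain ⟨k, hk⟩ := hp.odd_of_ne_two hp2
    have h1 : (1 : T) ∈ maximalIdeal T := by
      have h3 : (1 : T) = (p : T) - 2 * (k : T) := by rw [hk]; push_cast; ring
      rw [h3]
      exact Ideal.sub_mem _ hpT (Ideal.mul_mem_right _ _ h2')
    exact (Ideal.ne_top_iff_one _).mp (maximalIdeal.isMaximal T).ne_top h1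
  have hspan := span_eq_top_of_residual ρ hirr
  -- finiteness of `T / p^m`
  have hfinT : ∀ m : ℕ, Finite (T ⧸ Ideal.span {((p ^ m : ℕ) : T)}) := by
    intro m
    have : ((p ^ m : ℕ) : 𝒪) ≠ 0 := by
      rw [Nat.cast_ne_zero]
      exact pow_ne_zero _ hp.ne_zero
    have h := finite_quotient_algebra (T := T) this
    rwa [map_natCast] at h
  -- the Hecke algebra `R`
  let R := AnemicAlg S
  let algRT : Algebra R T := (π.comp (anemicEval hNS).toRingHom).toAlgebra
  have halg : ∀ a : R, algebraMap R T a = π (anemicEval hNS a) := fun _ => rfl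
  let modRJ : Module R J := Module.compHom J (anemicIncl S).toRingHom
  have hsmul : ∀ (a : R) (x : J), a • x = anemicIncl S a • x := fun _ _ => rfl
  have hcommR : SMulCommClass GQ R J :=
    ⟨fun g a x => by rw [hsmul, hsmul, smul_comm]⟩
  have hfinpow := finite_torsion_pow p hfin
  have hfinM : ∀ m : ℕ, Finite (Submodule.torsionBy R J ((p ^ m : ℕ) : R)) := by
    intro m
    have := hfinpow m
    exact Finite.of_injective (fun x : Submodule.torsionBy R J ((p ^ m : ℕ) : R) =>
      (⟨x.1, (mem_torsionBy_iff' _ _).mp x.2⟩ : {x : J // p ^ m • x = 0}))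
      (fun a b h => Subtype.ext (congrArg (fun z : {x : J // p ^ m • x = 0} => (z : J)) h))
  have hkill : ∀ m, ∀ x : Submodule.torsionBy R J ((p ^ m : ℕ) : R), p ^ m • x = 0 := fun m x =>
    Subtype.ext ((mem_torsionBy_iff' _ _).mp x.2)
  obtain ⟨n, 𝔞, hle, hfin𝔞, K, j, f, hj, hf1, hf2, hf3⟩ := exists_family_abstract (R := R) ρ h2
    hspan (insert p S) p (Nat.card {x : J // p • x = 0})
    (M := fun m => Submodule.torsionBy R J ((p ^ m : ℕ) : R))
    (fun m => torsAct R J (p ^ m)) (by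
      -- open kernel
      intro m
      choose L hL hL2 using hsmooth
      refine ⟨⨆ x : Submodule.torsionBy R J ((p ^ m : ℕ) : R), L x.1, ?_, fun σ hσ => ?_⟩
      · have : ∀ x : Submodule.torsionBy R J ((p ^ m : ℕ) : R), FiniteDimensional ℚ (L x.1) :=
          fun x => hL x.1
        exact IntermediateField.finiteDimensional_iSup_of_finite
      · refine LinearMap.ext fun x => Subtype.ext ?_
        exact hL2 x.1 σ fun y hy =>
          hσ y (le_iSup (fun x : Submodule.torsionBy R J ((p ^ m : ℕ) : R) => L x.1) x hy)) hkill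
    (by
      intro m
      have := hfin
      exact Nat.card_le_card_of_injective
        (fun y : {y : Submodule.torsionBy R J ((p ^ m : ℕ) : R) // p • y = 0} =>
          (⟨y.1.1, congrArg Subtype.val y.2⟩ : {x : J // p • x = 0}))
        (fun a b h => Subtype.ext (Subtype.ext
          (congrArg (fun z : {x : J // p • x = 0} => (z : J)) h))))
    (by
      -- Frobenius relations
      intro m ℓ hℓ hℓpS A hA σ hσ
      have hℓp : ℓ ≠ p := fun h => hℓpS (h ▸ Finset.mem_insert_self _ _)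
      have hℓS : ℓ ∉ S := fun h => hℓpS (Finset.mem_insert_of_mem h)
      have hℓN : ¬ ℓ ∣ N := fun h => hℓS (hNS ℓ hℓ h)
      have hℓS' : ℓ ∉ (↑S : Set ℕ) := fun h => hℓS (Finset.mem_coe.mp h)
      have hℓNp : ¬ ℓ ∣ N * p := by
        intro h
        rcases (Nat.Prime.dvd_mul hℓ).mp h with h | h
        · exact hℓN h
        · exact hℓp ((Nat.prime_dvd_prime_iff_eq hℓ hp).mp h)
      have hcp := hcharpoly ℓ hℓ hℓN hℓS' hℓp A hA σ hσ
      have hnt : Nontrivial ρ.V := Module.nontrivial_of_finrank_pos (R := T)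
        (by rw [ρ.finrank_eq]; norm_num)
      rw [Fermat.Agent.BN2.charpoly_eq_of_finrank_two ρ.finrank_eq] at hcp
      have htr : LinearMap.trace T ρ.V (ρ.ρ σ) =
          π (CuspForm.heckeAlgebra.T hℓ hℓN hℓS') := by
        have := congrArg (fun P => Polynomial.coeff P 1) hcp
        simpa [Polynomial.coeff_X, Polynomial.coeff_C] using this
      have hdet : LinearMap.det (ρ.ρ σ) = (ℓ : T) := by
        have := congrArg (fun P => Polynomial.coeff P 0) hcp
        simpa [Polynomial.coeff_X, Polynomial.coeff_C] using this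
      refine ⟨MvPolynomial.X ⟨⟨ℓ, hℓ⟩, hℓS⟩, (ℓ : R), ?_, ?_, ?_⟩
      · rw [htr, halg, anemicEval, MvPolynomial.aeval_X]
      · rw [hdet, map_natCast]
      · refine LinearMap.ext fun x => Subtype.ext ?_
        have hx : p ^ m • (x : J) = 0 := (mem_torsionBy_iff' _ _).mp x.2
        have h := hfrob ℓ hℓ hℓNp A hA σ hσ (σ⁻¹ • (x : J)) ⟨m, by
          rw [← gal_nsmul, hx, smul_zero]⟩
        rw [smul_inv_smul] at h
        show σ • (x : J) + (ℓ : R) • (σ⁻¹ • (x : J)) = MvPolynomial.X _ • (x : J)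
        rw [Nat.cast_smul_eq_nsmul, hsmul, anemicIncl, MvPolynomial.rename_X]
        rw [sub_add_eq_add_sub, sub_eq_zero] at h
        exact h)
    (by
      -- support
      intro α hα
      refine Fermat.Agent.RT.Components.eq_zero_of_forall_components 𝒪 T α ?_
      intro 𝒪' _ _ _ _ _ _ _ _ _ _ _ φ
      have hp𝒪' : (p : 𝒪') ∈ maximalIdeal 𝒪' := by
        rw [← map_natCast (algebraMap 𝒪 𝒪') p]
        exact map_nonunit (algebraMap 𝒪 𝒪') _ hp𝒪
      have hmem : ∀ m : ℕ, φ α ∈ maximalIdeal 𝒪' ^ m := by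
        intro m
        have hle : (Module.annihilator R (Submodule.torsionBy R J ((p ^ m : ℕ) : R))).map
            (algebraMap R T) ≤ (maximalIdeal 𝒪' ^ m).comap φ.toRingHom := by
          rw [Ideal.map_le_iff_le_comap]
          intro a ha
          rw [Ideal.mem_comap, Ideal.mem_comap, halg]
          have h := hsupp hNS 𝒪' (φ.toRingHom.comp π) m a (fun x hx => by
            have h1 := Module.mem_annihilator.mp ha ⟨x, (mem_torsionBy_iff' _ _).mpr hx⟩
            exact congrArg Subtype.val h1)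
          obtain ⟨c, hc⟩ := h
          show (φ.toRingHom.comp π) (anemicEval hNS a) ∈ _
          rw [hc]
          exact Ideal.mul_mem_right _ _ (Ideal.pow_mem_pow hp𝒪' m)
        exact hle (hα m)
      have hinf : φ α ∈ ⨅ m : ℕ, maximalIdeal 𝒪' ^ m := by
        rw [Ideal.mem_iInf]
        exact hmem
      rwa [Ideal.iInf_pow_eq_bot_of_isLocalRing _ (maximalIdeal.isMaximal 𝒪').ne_top,
        Ideal.mem_bot] at hinf)
    hred I
  refine ⟨n, 𝔞, hle, hfin𝔞, K, fun k => (Submodule.subtype _).toAddMonoidHom.comp (f k),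
    ?_, ?_, ?_, ?_⟩
  · intro k v
    have h1 : p ^ (j k) • (f k v : J) = 0 := (mem_torsionBy_iff' _ _).mp (f k v).2
    show p ^ n • (f k v : J) = 0
    rw [show n = (n - j k) + j k by have := hj k; omega, pow_add, mul_smul, h1, smul_zero]
  · intro k g v
    exact congrArg Subtype.val (hf1 k g v)
  · intro k a v
    exact congrArg Subtype.val (hf2 k a v)
  · intro v
    rw [← hf3 v]
    constructor
    · intro h k
      exact Subtype.ext (h k)
    · intro h k
      exact congrArg Subtype.val (h k)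

end

end Fermat.Agent.RT.UnitRoot
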