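import Mathlib
import Fermat.Agent.RT.UnitRoot.Main
import Fermat.Agent.RT.UnitRoot.Match
import Fermat.Agent.RT.PStep.OrdData
import Fermat.Agent.S30Wiring
import Fermat.Agent.DR.AllInputs

/-!
# The unit root relation for `λ`-adic representations

`T` a complete local Hecke algebra (with `T_p`, `p ∤ N`), `ρ` over `T` attached to
`π : heckeAlgebra N 2 S → T`, residually absolutely irreducible.  Then for every place `A` over `p`
and every Frobenius `φ` at `A`, `ρ(φ)² v - π(T_p) ρ(φ) v + p v` lies in `(I_A - 1) V`.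
-/

set_option autoImplicit false
set_option linter.unusedSectionVars false
set_option linter.overlappingInstances false
set_option linter.style.haveILetI false

open IsLocalRing AlgebraicCurve ModularCurve Fermat.Agent.RR Fermat.Agent.JRED Fermat.Agent.Flat
  Fermat.Agent.Flat.ConstModel Fermat.FlatMatch
open scoped nonZeroDivisors

noncomputable section

namespace Fermat.Agent.RT.UnitRoot

local notation "Qbar" => AlgebraicClosure ℚ
local notation "GQ" => (AlgebraicClosure ℚ ≃ₐ[ℚ] AlgebraicClosure ℚ)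

/-- What we need from the reduction map of `J₀(N)` at `A`. -/
structure RedPack (N p : ℕ) [NeZero N] (hp : p.Prime) (A : ValuationSubring Qbar)
    {X : Type} [AddCommGroup X] (red : JZero N →+ X) : Prop where
  inertia : ∀ σ ∈ A.inertiaSubgroupIn ℚ, ∀ x, red (σ • x) = red x
  frob : ∀ φ : GQ, A.IsFrobeniusAt φ p → ∀ x,
    red (φ • φ • x - heckeOperatorBar N ⟨p, hp⟩ (φ • x) + p • x) = 0
  coinv : ∀ (n : ℕ) (W : AddSubgroup (JZero N)), (∀ x ∈ W, p ^ n • x = 0) →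
    (∀ σ ∈ A.inertiaSubgroupIn ℚ, ∀ x ∈ W, σ • x ∈ W) → (∀ x ∈ W, red x = 0) → ∀ x ∈ W,
      x ∈ AddSubgroup.closure {y : JZero N | ∃ σ ∈ A.inertiaSubgroupIn ℚ, ∃ z ∈ W, y = σ • z - z}

open Fermat.Agent.JRED.ESSemi Fermat.Agent.JRED.ESGalois Fermat.Agent.JRED.ESFinal
  Fermat.Agent.Jan.HeckeInputs Fermat.Agent.Jan.HeckeNorm in
theorem exists_redPack {N : ℕ} [NeZero N] (hfin : TorsionFinite N)
    {p : ℕ} (hp : p.Prime) (hp2 : p ≠ 2) (hpN : ¬ p ∣ N)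
    {A : ValuationSubring (AlgebraicClosure ℚ)} (hA : A.LiesOverPrime p) :
    ∃ (X : Type) (_ : AddCommGroup X) (red : JZero N →+ X), RedPack N p hp A red := by
  have hπ : Function.Surjective (IsLocalRing.residue A) := IsLocalRing.residue_surjective
  have i1 : CharP (IsLocalRing.ResidueField A) p := ESFinal.charP_of_liesOver hπ hp hA
  have i2 : IsAlgClosed (IsLocalRing.ResidueField A) := isAlgClosed_of_surjective hπ
  have : NeZero p := ⟨hp.ne_zero⟩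
  have hD : DegreeInput N (IsLocalRing.ResidueField A) := degreeInput' (NeZero.ne N) hpN
  have hG : GoodReduction N (IsLocalRing.ResidueField A) :=
    JRED.goodReduction hπ hp (NeZero.ne N) hpN
  have hAL := AL.atkinLehnerInput N p hp hpN
  have i5 := hD.functionField
  have i6 := hD.functionField'
  let M : ModularConstRed N (IsLocalRing.residue A) := hD.modularConstRed hπ
  obtain ⟨r, hr⟩ := M.exists_isPlaceMap hπ hD hG
  have hfinT : ∀ n : ℕ, Finite (Submodule.torsionBy ℤ (JZero N) ((p : ℤ) ^ n)) := by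
    intro n
    refine ((hfin (p ^ n) (pow_pos hp.pos n)).subset ?_).to_subtype
    intro x hx
    have h1 : ((p : ℤ) ^ n) • x = 0 := (Submodule.mem_torsionBy_iff _ _).mp hx
    show (p ^ n) • x = 0
    rw [← natCast_zsmul, Nat.cast_pow]
    exact h1
  refine ⟨_, _, redMap M hr, ⟨fun σ hσ x => redMap_inertia M hr hπ hσ x,
    fun φ hφ x => redMap_frobenius M hr hπ hp hA hD hAL hφ x, fun n W hW hWI hW0 x hx => ?_⟩⟩
  refine AddSubgroup.closure_mono ?_ (mem_closure_of_redMap M hr hπ hp hp2 hA hD hG n (hfinT n) W hW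
    hWI hx (hW0 x hx))
  rintro y ⟨σ, hσ, z, hz, -, rfl⟩
  exact ⟨σ, hσ, z, hz, rfl⟩

section Abstract

variable {N p : ℕ} [NeZero N] {hp : p.Prime} {A : ValuationSubring Qbar}
  {X : Type} [AddCommGroup X] {red : JZero N →+ X} (R : RedPack N p hp A red)
  {V : Type} [AddCommGroup V] (act : GQ → V →+ V) {K : Type} (f : K → (V →+ JZero N))

include R in
/-- Right exactness of coinvariants, for finitely many maps. -/
theorem RedPack.exists_sub_mem (n : ℕ) (hn : ∀ k v, p ^ n • f k v = 0)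
    (hf : ∀ k g v, f k (act g v) = g • f k v) (s : Finset K) (u : V) (hu : ∀ k, red (f k u) = 0) :
    ∃ w : V, u - w ∈ AddSubgroup.closure
        {y : V | ∃ σ ∈ A.inertiaSubgroupIn ℚ, ∃ z : V, y = act σ z - z} ∧
      (∀ k, red (f k w) = 0) ∧ ∀ k ∈ s, f k w = 0 := by
  classical
  set D := AddSubgroup.closure
        {y : V | ∃ σ ∈ A.inertiaSubgroupIn ℚ, ∃ z : V, y = act σ z - z} with hD
  induction s using Finset.induction_on with
  | empty => exact ⟨u, by rw [sub_self]; exact D.zero_mem, hu, fun k hk => absurd hk (by simp)⟩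
  | insert k s hk ih =>
    obtain ⟨w, hw1, hw2, hw3⟩ := ih
    let U : AddSubgroup V :=
      { carrier := {v | (∀ k, red (f k v) = 0) ∧ ∀ k ∈ s, f k v = 0}
        zero_mem' := ⟨fun k => by rw [map_zero, map_zero], fun k _ => map_zero _⟩
        add_mem' := fun {a b} ha hb => ⟨fun k => by rw [map_add, map_add, ha.1, hb.1, add_zero],
          fun k hk => by rw [map_add, ha.2 k hk, hb.2 k hk, add_zero]⟩
        neg_mem' := fun {a} ha => ⟨fun k => by rw [map_neg, map_neg, ha.1, neg_zero],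
          fun k hk => by rw [map_neg, ha.2 k hk, neg_zero]⟩ }
    have hUI : ∀ σ ∈ A.inertiaSubgroupIn ℚ, ∀ v ∈ U, act σ v ∈ U := by
      rintro σ hσ v ⟨h1, h2⟩
      refine ⟨fun k => ?_, fun k hk => ?_⟩
      · rw [hf, R.inertia σ hσ, h1]
      · rw [hf, h2 k hk]
        exact smul_zero (A := JZero N) σ
    have hmem := R.coinv n (U.map (f k)) (by
        rintro _ ⟨v, -, rfl⟩
        exact hn k v) (by
        rintro σ hσ _ ⟨v, hv, rfl⟩
        exact ⟨act σ v, hUI σ hσ v hv, hf k σ v⟩) (by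
        rintro _ ⟨v, hv, rfl⟩
        exact hv.1 k) (f k w) ⟨w, ⟨hw2, hw3⟩, rfl⟩
    have hle : AddSubgroup.closure {y : JZero N | ∃ σ ∈ A.inertiaSubgroupIn ℚ,
        ∃ z ∈ U.map (f k), y = σ • z - z} ≤ (D ⊓ U).map (f k) := by
      rw [AddSubgroup.closure_le]
      rintro _ ⟨σ, hσ, _, ⟨v, hv, rfl⟩, rfl⟩
      refine ⟨act σ v - v, ⟨AddSubgroup.subset_closure ⟨σ, hσ, v, rfl⟩,
        U.sub_mem (hUI σ hσ v hv) hv⟩, ?_⟩
      rw [map_sub, hf]
    obtain ⟨d, ⟨hd1, hd2⟩, hd3⟩ := hle hmem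
    have hwU : w - d ∈ U := U.sub_mem (show w ∈ U from ⟨hw2, hw3⟩) hd2
    refine ⟨w - d, ?_, hwU.1, ?_⟩
    · rw [show u - (w - d) = (u - w) + d by abel]
      exact D.add_mem hw1 hd1
    · intro k' hk'
      rcases Finset.mem_insert.mp hk' with rfl | h
      · rw [map_sub, hd3, sub_self]
      · exact hwU.2 k' h

end Abstract

section Main

variable {p : ℕ} {N : ℕ} [NeZero N] {S : Finset ℕ}
  {𝒪 : Type} [CommRing 𝒪] [IsDomain 𝒪] [IsDiscreteValuationRing 𝒪]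
  [IsAdicComplete (IsLocalRing.maximalIdeal 𝒪) 𝒪]
  {T : Type} [CommRing T] [IsLocalRing T] [IsNoetherianRing T]
  [IsAdicComplete (IsLocalRing.maximalIdeal T) T] [Algebra 𝒪 T] [IsLocalHom (algebraMap 𝒪 T)]
  [Module.Finite 𝒪 T]

/-- **The unit root relation, `λ`-adic form.** -/
theorem frobenius_relation_adic [Finite (ResidueField 𝒪)] [CharZero 𝒪] [Module.IsTorsionFree 𝒪 T]
    (hred : IsReduced T)
    (hp : p.Prime) (hp2 : p ≠ 2) (hpN : ¬ p ∣ N) (hp𝒪 : (p : 𝒪) ∈ maximalIdeal 𝒪)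
    (hpS : p ∉ (↑S : Set ℕ)) (hNS : ∀ q : ℕ, q.Prime → q ∣ N → q ∈ S)
    (π : CuspForm.heckeAlgebra N 2 (↑S : Set ℕ) →+* T) (ρ : GaloisRepAdic T)
    (hcharpoly : ∀ (ℓ : ℕ) (hℓ : ℓ.Prime) (hℓN : ¬ ℓ ∣ N) (hℓS : ℓ ∉ (↑S : Set ℕ)), ℓ ≠ p →
      ∀ A : ValuationSubring (AlgebraicClosure ℚ), A.LiesOverPrime ℓ →
        ∀ σ : AlgebraicClosure ℚ ≃ₐ[ℚ] AlgebraicClosure ℚ, A.IsFrobeniusAt σ ℓ →
          LinearMap.charpoly (ρ.ρ σ) = Polynomial.X ^ 2 -
            Polynomial.C (π (CuspForm.heckeAlgebra.T hℓ hℓN hℓS)) * Polynomial.X +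
            Polynomial.C ((ℓ : T)))
    (hirr : ρ.residual.IsAbsolutelyIrreducible)
    (I : Fermat.Agent.S30Wiring.Inputs N p S) (htf : TorsionFinite N)
    {A : ValuationSubring Qbar} (hA : A.LiesOverPrime p) {φ : GQ} (hφ : A.IsFrobeniusAt φ p)
    (v : ρ.V) :
    ρ.ρ φ (ρ.ρ φ v) - π (CuspForm.heckeAlgebra.T hp hpN hpS) • ρ.ρ φ v + p • v ∈
      Submodule.span T {y : ρ.V | ∃ σ ∈ A.inertiaSubgroupIn ℚ, ∃ z : ρ.V, y = ρ.ρ σ z - z} := by
  let _ := heckeModuleBar N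
  have _ : SMulCommClass GQ HeckeAlg (JZero N) := I.galois_hecke
  have hfrob : FrobeniusQuadratic (K := ℚ) (L := AlgebraicClosure ℚ) N p (JZero N) :=
    Fermat.Agent.S30Wiring.frobeniusQuadratic_of_specialization (I.specialization I.galois_hecke)
  have hfin : Finite {x : JZero N // p • x = 0} := by
    have h := I.finite 1
    rw [pow_one] at h
    exact h
  have hsupp : Support N p S (JZero N) := I.support
  have hsm : ∀ x : JZero N, ∃ L : IntermediateField ℚ (AlgebraicClosure ℚ),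
    FiniteDimensional ℚ L ∧ ∀ g : GQ, (∀ y ∈ L, g y = y) → g • x = x := I.smooth
  set D := Submodule.span T {y : ρ.V | ∃ σ ∈ A.inertiaSubgroupIn ℚ, ∃ z : ρ.V, y = ρ.ρ σ z - z}
    with hD
  set z := ρ.ρ φ (ρ.ρ φ v) - π (CuspForm.heckeAlgebra.T hp hpN hpS) • ρ.ρ φ v + p • v with hz
  obtain ⟨X, _, red, R⟩ := exists_redPack htf hp hp2 hpN hA
  have hres : Finite (ResidueField T) := Fermat.Agent.RT.Components.finite_residueField (R := 𝒪)
  have hpT : p ∉ S := fun h => hpS (Finset.mem_coe.mpr h)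
  -- the relation modulo `𝔪 ^ m`
  have hm : ∀ m : ℕ, z ∈ D ⊔ (maximalIdeal T ^ m) • (⊤ : Submodule T ρ.V) := by
    intro m
    have hfinq : Finite (T ⧸ maximalIdeal T ^ m) :=
      Fermat.Agent.DefCond.finite_quotient_pow hres m
    obtain ⟨n, 𝔞, hle, hfin𝔞, K, f, hf1, hf2, hf3, hf4⟩ := exists_family_insert (𝒪 := 𝒪) hred hp hp2
      hp𝒪 hNS π ρ hcharpoly hirr (JZero N) hsm hfrob hfin hsupp (maximalIdeal T ^ m)
    -- a finite set of maps detects `𝔞 V`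
    have hfinV : Finite (ρ.V ⧸ (𝔞 • (⊤ : Submodule T ρ.V))) :=
      Fermat.Agent.RT.PStep.finite_level ρ 𝔞 hfin𝔞
    obtain ⟨s, hs⟩ : ∃ s : Finset K, ∀ v : ρ.V, (∀ k ∈ s, f k v = 0) →
        v ∈ 𝔞 • (⊤ : Submodule T ρ.V) := by
      classical
      by_contra hcon
      push Not at hcon
      have hk : ∀ c : ρ.V ⧸ (𝔞 • (⊤ : Submodule T ρ.V)), c ≠ 0 → ∃ k, ∀ v : ρ.V,
          Submodule.Quotient.mk v = c → f k v ≠ 0 := by
        intro c hc
        obtain ⟨v₀, rfl⟩ := Submodule.Quotient.mk_surjective _ c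
        rw [Ne, Submodule.Quotient.mk_eq_zero, ← hf4, not_forall] at hc
        obtain ⟨k, hk⟩ := hc
        refine ⟨k, fun v hv h => hk ?_⟩
        rw [Submodule.Quotient.eq, ← hf4] at hv
        have h1 := hv k
        rw [map_sub, h, zero_sub, neg_eq_zero] at h1
        exact h1
      choose κ hκ using hk
      have := Fintype.ofFinite {c : ρ.V ⧸ (𝔞 • (⊤ : Submodule T ρ.V)) // c ≠ 0}
      obtain ⟨v, hv1, hv2⟩ := hcon (Finset.univ.image
        fun c : {c : ρ.V ⧸ (𝔞 • (⊤ : Submodule T ρ.V)) // c ≠ 0} => κ c.1 c.2)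
      have hv3 : (Submodule.Quotient.mk v : ρ.V ⧸ (𝔞 • (⊤ : Submodule T ρ.V))) ≠ 0 := by
        rwa [Ne, Submodule.Quotient.mk_eq_zero]
      exact hκ _ hv3 v rfl (hv1 _ (Finset.mem_image_of_mem
        (fun c : {c : ρ.V ⧸ (𝔞 • (⊤ : Submodule T ρ.V)) // c ≠ 0} => κ c.1 c.2)
        (Finset.mem_univ ⟨_, hv3⟩)))
    -- the reduction of `f k z` vanishes
    have hz0 : ∀ k, red (f k z) = 0 := by
      intro k
      have h1 : f k (π (CuspForm.heckeAlgebra.T hp hpN hpS) • ρ.ρ φ v) =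
          heckeOperatorBar N ⟨p, hp⟩ (φ • f k v) := by
        have h2 := hf3 k (MvPolynomial.X ⟨⟨p, hp⟩, hpT⟩) (ρ.ρ φ v)
        rw [anemicEval, MvPolynomial.aeval_X] at h2
        refine h2.trans ?_
        rw [anemicIncl, MvPolynomial.rename_X, hf2]
        exact heckeModuleBar_heckeGen_smul (Fermat.Agent.JAN.Degree.heckeOperatorsCommuteBar N)
          ⟨p, hp⟩ _
      have h3 : f k z = φ • φ • f k v - heckeOperatorBar N ⟨p, hp⟩ (φ • f k v) + p • f k v := by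
        rw [hz, map_add, map_sub, hf2, hf2, h1, map_nsmul]
      rw [h3]
      exact R.frob φ hφ _
    obtain ⟨w, hw1, -, hw3⟩ := R.exists_sub_mem (fun g => (ρ.ρ g).toAddMonoidHom) f n hf1 hf2 s z
      hz0
    have hw4 := hs w hw3
    rw [show z = (z - w) + w by abel]
    refine Submodule.add_mem_sup ?_ (Submodule.smul_mono_left hle hw4)
    have hcl : AddSubgroup.closure {y : ρ.V | ∃ σ ∈ A.inertiaSubgroupIn ℚ, ∃ z : ρ.V,
        y = (ρ.ρ σ).toAddMonoidHom z - z} ≤ D.toAddSubgroup := by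
      rw [AddSubgroup.closure_le]
      exact Submodule.subset_span
    exact hcl hw1
  -- Krull intersection
  have hkr : (⨅ m : ℕ, (maximalIdeal T ^ m) • (⊤ : Submodule T (ρ.V ⧸ D))) = ⊥ :=
    Ideal.iInf_pow_smul_eq_bot_of_isLocalRing _ (maximalIdeal.isMaximal T).ne_top
  have hq : (Submodule.Quotient.mk z : ρ.V ⧸ D) ∈
      ⨅ m : ℕ, (maximalIdeal T ^ m) • (⊤ : Submodule T (ρ.V ⧸ D)) := by
    rw [Submodule.mem_iInf]
    intro m
    obtain ⟨d, hd, w, hw, h⟩ := Submodule.mem_sup.mp (hm m)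
    rw [← h, Submodule.Quotient.mk_add, (Submodule.Quotient.mk_eq_zero D).mpr hd, zero_add]
    have h1 : D.mkQ w ∈ ((maximalIdeal T ^ m) • (⊤ : Submodule T ρ.V)).map D.mkQ :=
      Submodule.mem_map_of_mem hw
    rw [Submodule.map_smul''] at h1
    exact Submodule.smul_mono le_rfl le_top h1
  rw [hkr, Submodule.mem_bot, Submodule.Quotient.mk_eq_zero] at hq
  exact hq

/-- **The unit root relation**, unconditionally. -/
theorem frobenius_relation_mem [Finite (ResidueField 𝒪)] [CharZero 𝒪] [Module.IsTorsionFree 𝒪 T]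
    (hred : IsReduced T)
    (hp : p.Prime) (hp2 : p ≠ 2) (hpN : ¬ p ∣ N) (hp𝒪 : (p : 𝒪) ∈ maximalIdeal 𝒪)
    (hpS : p ∉ (↑S : Set ℕ)) (hNS : ∀ q : ℕ, q.Prime → q ∣ N → q ∈ S)
    (π : CuspForm.heckeAlgebra N 2 (↑S : Set ℕ) →+* T) (ρ : GaloisRepAdic T)
    (hcharpoly : ∀ (ℓ : ℕ) (hℓ : ℓ.Prime) (hℓN : ¬ ℓ ∣ N) (hℓS : ℓ ∉ (↑S : Set ℕ)), ℓ ≠ p →
      ∀ A : ValuationSubring (AlgebraicClosure ℚ), A.LiesOverPrime ℓ →
        ∀ σ : AlgebraicClosure ℚ ≃ₐ[ℚ] AlgebraicClosure ℚ, A.IsFrobeniusAt σ ℓ →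
          LinearMap.charpoly (ρ.ρ σ) = Polynomial.X ^ 2 -
            Polynomial.C (π (CuspForm.heckeAlgebra.T hℓ hℓN hℓS)) * Polynomial.X +
            Polynomial.C ((ℓ : T)))
    (hirr : ρ.residual.IsAbsolutelyIrreducible)
    {A : ValuationSubring Qbar} (hA : A.LiesOverPrime p) {φ : GQ} (hφ : A.IsFrobeniusAt φ p)
    (v : ρ.V) :
    ρ.ρ φ (ρ.ρ φ v) - π (CuspForm.heckeAlgebra.T hp hpN hpS) • ρ.ρ φ v + p • v ∈
      Submodule.span T {y : ρ.V | ∃ σ ∈ A.inertiaSubgroupIn ℚ, ∃ z : ρ.V, y = ρ.ρ σ z - z} := by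
  have : Fact p.Prime := ⟨hp⟩
  exact frobenius_relation_adic (𝒪 := 𝒪) hred hp hp2 hpN hp𝒪 hpS hNS π ρ hcharpoly hirr
    (Fermat.Agent.GAL.Final.s30_inputs Fermat.Agent.DR.allInputs p N S)
    (fun _ hn => (Fermat.Agent.DR.allInputs.jan N).finite hn) hA hφ v

/-- **The unit root relation** on a quotient with trivial inertia action. -/
theorem frobenius_relation_quotient [Finite (ResidueField 𝒪)] [CharZero 𝒪]
    [Module.IsTorsionFree 𝒪 T] (hred : IsReduced T)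
    (hp : p.Prime) (hp2 : p ≠ 2) (hpN : ¬ p ∣ N) (hp𝒪 : (p : 𝒪) ∈ maximalIdeal 𝒪)
    (hpS : p ∉ (↑S : Set ℕ)) (hNS : ∀ q : ℕ, q.Prime → q ∣ N → q ∈ S)
    (π : CuspForm.heckeAlgebra N 2 (↑S : Set ℕ) →+* T) (ρ : GaloisRepAdic T)
    (hcharpoly : ∀ (ℓ : ℕ) (hℓ : ℓ.Prime) (hℓN : ¬ ℓ ∣ N) (hℓS : ℓ ∉ (↑S : Set ℕ)), ℓ ≠ p →
      ∀ A : ValuationSubring (AlgebraicClosure ℚ), A.LiesOverPrime ℓ →
        ∀ σ : AlgebraicClosure ℚ ≃ₐ[ℚ] AlgebraicClosure ℚ, A.IsFrobeniusAt σ ℓ →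
          LinearMap.charpoly (ρ.ρ σ) = Polynomial.X ^ 2 -
            Polynomial.C (π (CuspForm.heckeAlgebra.T hℓ hℓN hℓS)) * Polynomial.X +
            Polynomial.C ((ℓ : T)))
    (hirr : ρ.residual.IsAbsolutelyIrreducible)
    {A : ValuationSubring Qbar} (hA : A.LiesOverPrime p) {φ : GQ} (hφ : A.IsFrobeniusAt φ p)
    {Q : Type*} [AddCommGroup Q] [Module T Q] (q : ρ.V →ₗ[T] Q)
    (hq : ∀ σ ∈ A.inertiaSubgroupIn ℚ, ∀ v, q (ρ.ρ σ v) = q v) (v : ρ.V) :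
    q (ρ.ρ φ (ρ.ρ φ v)) - π (CuspForm.heckeAlgebra.T hp hpN hpS) • q (ρ.ρ φ v) + p • q v = 0 := by
  have h := frobenius_relation_mem (𝒪 := 𝒪) hred hp hp2 hpN hp𝒪 hpS hNS π ρ hcharpoly hirr hA hφ v
  have hle : Submodule.span T {y : ρ.V | ∃ σ ∈ A.inertiaSubgroupIn ℚ, ∃ z : ρ.V,
      y = ρ.ρ σ z - z} ≤ LinearMap.ker q := by
    rw [Submodule.span_le]
    rintro y ⟨σ, hσ, z, rfl⟩
    rw [SetLike.mem_coe, LinearMap.mem_ker, map_sub, hq σ hσ, sub_self]
  have h1 := hle h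
  rw [LinearMap.mem_ker, map_add, map_sub, map_smul, map_nsmul] at h1
  exact h1

/-- **The unit root relation** for ordinary representations: the eigenvalue `z` of Frobenius on
the unramified quotient satisfies `z² - π(T_p) z + p = 0`. -/
theorem frobenius_relation_ordData [Finite (ResidueField 𝒪)] [CharZero 𝒪]
    [Module.IsTorsionFree 𝒪 T] (hred : IsReduced T)
    (hp : p.Prime) (hp2 : p ≠ 2) (hpN : ¬ p ∣ N) (hp𝒪 : (p : 𝒪) ∈ maximalIdeal 𝒪)
    (hpS : p ∉ (↑S : Set ℕ)) (hNS : ∀ q : ℕ, q.Prime → q ∣ N → q ∈ S)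
    (π : CuspForm.heckeAlgebra N 2 (↑S : Set ℕ) →+* T) (ρ : GaloisRepAdic T)
    (hcharpoly : ∀ (ℓ : ℕ) (hℓ : ℓ.Prime) (hℓN : ¬ ℓ ∣ N) (hℓS : ℓ ∉ (↑S : Set ℕ)), ℓ ≠ p →
      ∀ A : ValuationSubring (AlgebraicClosure ℚ), A.LiesOverPrime ℓ →
        ∀ σ : AlgebraicClosure ℚ ≃ₐ[ℚ] AlgebraicClosure ℚ, A.IsFrobeniusAt σ ℓ →
          LinearMap.charpoly (ρ.ρ σ) = Polynomial.X ^ 2 -
            Polynomial.C (π (CuspForm.heckeAlgebra.T hℓ hℓN hℓS)) * Polynomial.X +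
            Polynomial.C ((ℓ : T)))
    (hirr : ρ.residual.IsAbsolutelyIrreducible)
    {A : ValuationSubring Qbar} (hA : A.LiesOverPrime p) {φ : GQ} (hφ : A.IsFrobeniusAt φ p)
    (hφD : φ ∈ A.decompositionSubgroup ℚ) (d : PStep.OrdData ρ A) :
    d.z φ ^ 2 - π (CuspForm.heckeAlgebra.T hp hpN hpS) * d.z φ + p = 0 := by
  have hcoord : ∀ σ ∈ A.decompositionSubgroup ℚ, ∀ v : ρ.V,
      d.b.coord 1 (ρ.ρ σ v) = d.z σ * d.b.coord 1 v := by
    intro σ hσ v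
    conv_lhs => rw [← d.b.sum_repr v, Fin.sum_univ_two]
    rw [map_add, map_smul, map_smul, d.h0 σ hσ, d.h1 σ hσ]
    simp only [map_add, map_smul, Module.Basis.coord_apply, d.b.repr_self, smul_eq_mul]
    rw [Finsupp.single_eq_same, Finsupp.single_eq_of_ne (by decide)]
    ring
  have h := frobenius_relation_quotient (𝒪 := 𝒪) hred hp hp2 hpN hp𝒪 hpS hNS π ρ hcharpoly hirr hA
    hφ (d.b.coord 1) (fun σ hσ v => by
      rw [hcoord σ (FlatOrd.InertiaLift.mem_decompositionSubgroup_of_mem_inertia A hσ), d.hI σ hσ,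
        one_mul]) (d.b 1)
  rw [hcoord φ hφD, hcoord φ hφD] at h
  simp only [Module.Basis.coord_apply, d.b.repr_self] at h
  rw [Finsupp.single_eq_same, mul_one, smul_eq_mul, nsmul_eq_mul, mul_one] at h
  rw [pow_two]
  exact h

/-- **Residual form**: if `V` has a nonzero residual quotient on which inertia acts trivially and
Frobenius acts by a scalar `c`, then `T_p ≡ c`. -/
theorem residue_heckeT_eq [Finite (ResidueField 𝒪)] [CharZero 𝒪]
    [Module.IsTorsionFree 𝒪 T] (hred : IsReduced T)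
    (hp : p.Prime) (hp2 : p ≠ 2) (hpN : ¬ p ∣ N) (hp𝒪 : (p : 𝒪) ∈ maximalIdeal 𝒪)
    (hpS : p ∉ (↑S : Set ℕ)) (hNS : ∀ q : ℕ, q.Prime → q ∣ N → q ∈ S)
    (π : CuspForm.heckeAlgebra N 2 (↑S : Set ℕ) →+* T) (ρ : GaloisRepAdic T)
    (hcharpoly : ∀ (ℓ : ℕ) (hℓ : ℓ.Prime) (hℓN : ¬ ℓ ∣ N) (hℓS : ℓ ∉ (↑S : Set ℕ)), ℓ ≠ p →
      ∀ A : ValuationSubring (AlgebraicClosure ℚ), A.LiesOverPrime ℓ →
        ∀ σ : AlgebraicClosure ℚ ≃ₐ[ℚ] AlgebraicClosure ℚ, A.IsFrobeniusAt σ ℓ →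
          LinearMap.charpoly (ρ.ρ σ) = Polynomial.X ^ 2 -
            Polynomial.C (π (CuspForm.heckeAlgebra.T hℓ hℓN hℓS)) * Polynomial.X +
            Polynomial.C ((ℓ : T)))
    (hirr : ρ.residual.IsAbsolutelyIrreducible)
    {A : ValuationSubring Qbar} (hA : A.LiesOverPrime p) {φ : GQ} (hφ : A.IsFrobeniusAt φ p)
    (q : ρ.V →ₗ[T] ResidueField T) (hq0 : q ≠ 0)
    (hq : ∀ σ ∈ A.inertiaSubgroupIn ℚ, ∀ v, q (ρ.ρ σ v) = q v) (c : ResidueField T)
    (hc : ∀ v, q (ρ.ρ φ v) = c * q v) :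
    residue T (π (CuspForm.heckeAlgebra.T hp hpN hpS)) = c := by
  obtain ⟨v, hv⟩ : ∃ v, q v ≠ 0 := by
    by_contra h
    push Not at h
    exact hq0 (LinearMap.ext h)
  have h := frobenius_relation_quotient (𝒪 := 𝒪) hred hp hp2 hpN hp𝒪 hpS hNS π ρ hcharpoly hirr hA
    hφ q hq v
  have hp0 : (p : ResidueField T) = 0 := by
    have h1 : (p : T) ∈ maximalIdeal T := by
      rw [← map_natCast (algebraMap 𝒪 T) p]
      exact map_nonunit (algebraMap 𝒪 T) _ hp𝒪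
    rw [← map_natCast (residue T), residue_eq_zero_iff]
    exact h1
  rw [hc, hc, nsmul_eq_mul, hp0, zero_mul, add_zero, Algebra.smul_def] at h
  have hc0 : c ≠ 0 := by
    rintro rfl
    apply hv
    have h1 := hc (ρ.ρ φ⁻¹ v)
    rw [zero_mul, ← Module.End.mul_apply, ← map_mul, mul_inv_cancel, map_one,
      Module.End.one_apply] at h1
    exact h1
  have h2 : (c - residue T (π (CuspForm.heckeAlgebra.T hp hpN hpS))) * (c * q v) = 0 := by
    rw [sub_mul]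
    exact h
  rcases mul_eq_zero.mp h2 with h3 | h3
  · exact (sub_eq_zero.mp h3).symm
  · exact absurd h3 (mul_ne_zero hc0 hv)

end Main

end Fermat.Agent.RT.UnitRoot
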